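/-
S18lib / Mod23 / MuLine (helper9)

**(M-c) = the μ-line block of memo #5/#6/#7**: the squeeze at an auxiliary level `N` (`= 4N₀` for
`ℓ = 3`, `= 9N₀` for `ℓ = 2`), everything at the single level `N`.
Hypothesis (helper4's (Cusp-k), not yet landed):
`hcusp : Nat.card (Tame.polesOf (K := kRes A) (Gink.jK A N)) ≤ cuspCount N`.
* `genus_le_level` : **(W-c) at level `N`** (`ℓ ∤ N`, no place map): `g(FRes A N) ≤ g(FBar N)`,
  from helper2's `GaussDatum.genus_le_of_frame` at helper7's `V.gaussDatum N` with its frame.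
* `muLine_four` (`ℓ = 3`, `4 ∣ N`): **(S2)** `∃ g', IsCurveOfGenus ℚ̄ (FBar N) g' ∧
  IsCurveOfGenus k (FRes A N) g'` and **(S1)** every zero of `μ̄₄ - 1` is simple.
* `muLine_nine` (`ℓ = 2`, `9 ∣ N`): (S2) and (S1) for `μ̄₉ - 1` and for `μ̄₉ + 1`.
* `muLine_four_extra`, `muLine_nine_extra`: `FRes A N / k(μ̄)` finite separable of degree
  `ψ(N)/6` resp. `ψ(N)/12`; `#poles j̄ = cuspCount N`.
Route: `RRgen.SqueezeFree.squeeze_mu4/9` (Canonical charts at `μ̄` + Lüroth degree + pole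
dictionary + helper6's Squeeze) with `x = j̄` (`Gink`), the relation of `Haupt/Residue` (lead),
`Gin0.rh_of_four_dvd/_nine_dvd` (helper1) and `genus_le_level`.
-/
import Mathlib
import Fermat.Agent.S18lib.RRgen.SqueezeFree
import Fermat.Agent.S18lib.Haupt.Residue
import Fermat.Agent.S18lib.Gin0.Genus
import Fermat.Agent.S18lib.Gink.Sep
import Fermat.Agent.S18lib.Gink.Degree
import Fermat.Agent.S18lib.V.GaussU.Frame
import Fermat.Agent.S18lib.Weak.GenusLe
import Fermat.Agent.S18lib.G.FiveLe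

set_option autoImplicit false
set_option linter.style.haveILetI false
set_option linter.unusedSectionVars false

noncomputable section

namespace Fermat.Agent.S18lib.Mod23

open AlgebraicCurve ModularCurve IntermediateField Polynomial Module

variable (N : ℕ) [NeZero N] {ℓ : ℕ} [Fact ℓ.Prime]
variable (A : ValuationSubring (AlgebraicClosure ℚ))

local notation "Qb" => AlgebraicClosure ℚ

/-- `S18lib.polesOf` (Setup/DatumFibre) and `Tame.poleDiv` are the same divisor. -/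
theorem polesOf_eq_poleDiv {K F : Type*} [Field K] [Field F] [Algebra K F]
    [HasPrincipalDivisors K F] (f : F) : polesOf (K := K) f = Tame.poleDiv (K := K) f := by
  ext P
  rw [polesOf_apply, Tame.poleDiv_apply]

/-- **(W-c) at level `N`** (no place map needed): `g(FRes A N) ≤ g(FBar N)`. -/
theorem genus_le_level (hℓN : ¬ ℓ ∣ N) (hA : A.LiesOverPrime ℓ) {g gk : ℕ}
    (hF : IsCurveOfGenus Qb (FBar N) g) (hFk : IsCurveOfGenus (kRes A) (FRes A N) gk) :
    gk ≤ g := by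
  haveI := hF.hasPrincipalDivisors
  haveI := hFk.hasPrincipalDivisors
  have hx : Transcendental (kRes A) (Gink.jK A N) := Gink.transcendental_jK A N
  haveI : Algebra.IsSeparable (kRes A)⟮Gink.jK A N⟯ (FRes A N) := Gink.isSeparable_jK A N hA hℓN
  have hred : (V.gaussDatum N A hℓN hA).redF (Gin0.jF N) = Gink.jK A N := by
    have h1 : (V.gaussDatum N A hℓN hA).redF (Gin0.jF N) = V.jRes N A :=
      V.gaussDatum_redF_jBar N A hℓN hA
    rw [h1, Haupt.jRes_eq_jK]
  refine GaussDatum.genus_le_of_frame (V.gaussDatum N A hℓN hA)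
    (V.gaussDatum_isFrameFamily N A hℓN hA) (Gin0.transcendental_jF N) hF hFk ?_
  have h1 : Divisor.degree (polesOf (K := Qb) (Gin0.jF N)) = (dedekindPsi N : ℤ) := by
    rw [polesOf_eq_poleDiv, Gin0.degree_poleDiv_jF N]
  have h2 : Divisor.degree (polesOf (K := kRes A) ((V.gaussDatum N A hℓN hA).redF (Gin0.jF N))) =
      (dedekindPsi N : ℤ) := by
    rw [hred, polesOf_eq_poleDiv, G.degree_poleDiv_of_transcendental (kRes A) hx,
      Gink.finrank_jK A N hA hℓN]
  exact h1.trans h2.symm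

/-- **(M-c) for `ℓ = 3`** (the level `N` here is the auxiliary level `N' = 4N₀`): the squeeze over
the `μ₄`-line. From the cusp count on the `k`-side: (S2) both function fields have the same
genus, and (S1) `FRes A N / k(μ̄₄)` is unramified over `μ̄₄ = 1`. -/
theorem muLine_four (hℓ : ℓ = 3) (hℓN : ¬ ℓ ∣ N) (hA : A.LiesOverPrime ℓ) (hN : 4 ∣ N)
    (hcusp : Nat.card (Tame.polesOf (K := kRes A) (Gink.jK A N)) ≤ cuspCount N) :
    (∃ g' : ℕ, IsCurveOfGenus Qb (FBar N) g' ∧ IsCurveOfGenus (kRes A) (FRes A N) g') ∧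
    ∀ v : Place (kRes A) (FRes A N), 0 < v.ord (Haupt.mu4K N hA hℓN hN - 1) →
      v.ord (Haupt.mu4K N hA hℓN hN - 1) = 1 := by
  subst hℓ
  -- characteristic 0 side
  obtain ⟨g, hF, hg⟩ := Gin0.exists_isCurveOfGenus_FBar N
  have h12 := Gin0.rh_of_four_dvd N hN hg
  -- characteristic 3 side
  have hx : Transcendental (kRes A) (Gink.jK A N) := Gink.transcendental_jK A N
  haveI : Algebra.IsSeparable (kRes A)⟮Gink.jK A N⟯ (FRes A N) := Gink.isSeparable_jK A N hA hℓN
  have hFk : IsCurveOfGenus (kRes A) (FRes A N) (RRgen.Canonical.genusOf (kRes A) hx) :=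
    RRgen.Canonical.isCurveOfGenus_genusOf (kRes A) hx
  set gk := RRgen.Canonical.genusOf (kRes A) hx with hgk
  have hle : gk ≤ g := genus_le_level N A hℓN hA hF hFk
  haveI : CharP (kRes A) 3 := Gink.charP_kRes A hA
  have h2 : (2 : kRes A) ≠ 0 := by
    have := Gink.natCast_ne_zero_kRes (A := A) hA (n := 2) (by norm_num)
    exact_mod_cast this
  have hrel := Haupt.jK_mul_mu4K N hA hℓN hN
  have hμ : Transcendental (kRes A) (Haupt.mu4K N hA hℓN hN) :=
    Haupt.transcendental_mu4K N hA hℓN hN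
  have hn := RRgen.Luroth.finrank_of_mu4 (kRes A) hμ h2 hrel
  have hψ : dedekindPsi N = 6 * finrank (kRes A)⟮Haupt.mu4K N hA hℓN hN⟯ (FRes A N) := by
    rw [← hn, Gink.finrank_jK A N hA hℓN]
  set n := finrank (kRes A)⟮Haupt.mu4K N hA hℓN hN⟯ (FRes A N) with hndef
  have hgg : 2 * (g : ℤ) - 2 = (n : ℤ) - cuspCount N := by
    have : (dedekindPsi N : ℤ) = 6 * n := by exact_mod_cast hψ
    rw [this] at h12
    linarith
  have hgle : 2 * (gk : ℤ) - 2 ≤ (n : ℤ) - cuspCount N := by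
    have : (gk : ℤ) ≤ g := by exact_mod_cast hle
    linarith
  obtain ⟨-, -, -, -, h5, -, h7⟩ := RRgen.SqueezeFree.squeeze_mu4 (kRes A) hx h2 hrel
    (cuspCount N) hcusp hFk n hn hgle
  have hgeq : gk = g := by
    have : (gk : ℤ) = g := by linarith
    exact_mod_cast this
  refine ⟨⟨g, hF, hgeq ▸ hFk⟩, fun v hv => ?_⟩
  have h1 := h7 1 (RRgen.SqueezeFree.one_notMem_S4_of_charP (kRes A)) v
    (by rw [map_one]; exact hv)
  rwa [map_one] at h1

/-- by-products of the squeeze over the `μ₄`-line: `FRes A N / k(μ̄₄)` is finite separable of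
degree `ψ(N)/6`, and the number of poles of `j̄` is exactly `cuspCount N`. -/
theorem muLine_four_extra (hℓ : ℓ = 3) (hℓN : ¬ ℓ ∣ N) (hA : A.LiesOverPrime ℓ) (hN : 4 ∣ N)
    (hcusp : Nat.card (Tame.polesOf (K := kRes A) (Gink.jK A N)) ≤ cuspCount N) :
    FiniteDimensional (kRes A)⟮Haupt.mu4K N hA hℓN hN⟯ (FRes A N) ∧
    Algebra.IsSeparable (kRes A)⟮Haupt.mu4K N hA hℓN hN⟯ (FRes A N) ∧
    dedekindPsi N = 6 * finrank (kRes A)⟮Haupt.mu4K N hA hℓN hN⟯ (FRes A N) ∧
    Nat.card (Tame.polesOf (K := kRes A) (Gink.jK A N)) = cuspCount N := by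
  subst hℓ
  obtain ⟨g, hF, hg⟩ := Gin0.exists_isCurveOfGenus_FBar N
  have h12 := Gin0.rh_of_four_dvd N hN hg
  have hx : Transcendental (kRes A) (Gink.jK A N) := Gink.transcendental_jK A N
  haveI : Algebra.IsSeparable (kRes A)⟮Gink.jK A N⟯ (FRes A N) := Gink.isSeparable_jK A N hA hℓN
  have hFk : IsCurveOfGenus (kRes A) (FRes A N) (RRgen.Canonical.genusOf (kRes A) hx) :=
    RRgen.Canonical.isCurveOfGenus_genusOf (kRes A) hx
  set gk := RRgen.Canonical.genusOf (kRes A) hx with hgk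
  have hle : gk ≤ g := genus_le_level N A hℓN hA hF hFk
  have h2 : (2 : kRes A) ≠ 0 := by
    have := Gink.natCast_ne_zero_kRes (A := A) hA (n := 2) (by norm_num)
    exact_mod_cast this
  have hrel := Haupt.jK_mul_mu4K N hA hℓN hN
  have hμ : Transcendental (kRes A) (Haupt.mu4K N hA hℓN hN) :=
    Haupt.transcendental_mu4K N hA hℓN hN
  have hn := RRgen.Luroth.finrank_of_mu4 (kRes A) hμ h2 hrel
  have hψ : dedekindPsi N = 6 * finrank (kRes A)⟮Haupt.mu4K N hA hℓN hN⟯ (FRes A N) := by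
    rw [← hn, Gink.finrank_jK A N hA hℓN]
  set n := finrank (kRes A)⟮Haupt.mu4K N hA hℓN hN⟯ (FRes A N) with hndef
  have hgle : 2 * (gk : ℤ) - 2 ≤ (n : ℤ) - cuspCount N := by
    have h1 : (dedekindPsi N : ℤ) = 6 * n := by exact_mod_cast hψ
    rw [h1] at h12
    have : (gk : ℤ) ≤ g := by exact_mod_cast hle
    linarith
  obtain ⟨-, h2', h3', -, -, h6, -⟩ := RRgen.SqueezeFree.squeeze_mu4 (kRes A) hx h2 hrel
    (cuspCount N) hcusp hFk n hn hgle
  exact ⟨h2', h3', hψ, h6⟩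

/-- **(M-c) for `ℓ = 2`** (the level `N` here is the auxiliary level `N' = 9N₀`): the squeeze over
the `μ₉`-line. (S2) both function fields have the same genus; (S1) `FRes A N / k(μ̄₉)` is
unramified over `μ̄₉ = 1` (stated for `μ̄₉ - 1` and for `μ̄₉ + 1`, equal in characteristic `2`). -/
theorem muLine_nine (hℓ : ℓ = 2) (hℓN : ¬ ℓ ∣ N) (hA : A.LiesOverPrime ℓ) (hN : 9 ∣ N)
    (hcusp : Nat.card (Tame.polesOf (K := kRes A) (Gink.jK A N)) ≤ cuspCount N) :
    (∃ g' : ℕ, IsCurveOfGenus Qb (FBar N) g' ∧ IsCurveOfGenus (kRes A) (FRes A N) g') ∧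
    (∀ v : Place (kRes A) (FRes A N), 0 < v.ord (Haupt.mu9K N hA hℓN hN - 1) →
      v.ord (Haupt.mu9K N hA hℓN hN - 1) = 1) ∧
    ∀ v : Place (kRes A) (FRes A N), 0 < v.ord (Haupt.mu9K N hA hℓN hN + 1) →
      v.ord (Haupt.mu9K N hA hℓN hN + 1) = 1 := by
  subst hℓ
  -- characteristic 0 side
  obtain ⟨g, hF, hg⟩ := Gin0.exists_isCurveOfGenus_FBar N
  have h12 := Gin0.rh_of_nine_dvd N hN hg
  -- characteristic 2 side
  have hx : Transcendental (kRes A) (Gink.jK A N) := Gink.transcendental_jK A N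
  haveI : Algebra.IsSeparable (kRes A)⟮Gink.jK A N⟯ (FRes A N) := Gink.isSeparable_jK A N hA hℓN
  have hFk : IsCurveOfGenus (kRes A) (FRes A N) (RRgen.Canonical.genusOf (kRes A) hx) :=
    RRgen.Canonical.isCurveOfGenus_genusOf (kRes A) hx
  set gk := RRgen.Canonical.genusOf (kRes A) hx with hgk
  have hle : gk ≤ g := genus_le_level N A hℓN hA hF hFk
  haveI : CharP (kRes A) 2 := Gink.charP_kRes A hA
  have h3 : (3 : kRes A) ≠ 0 := by
    have := Gink.natCast_ne_zero_kRes (A := A) hA (n := 3) (by norm_num)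
    exact_mod_cast this
  have hrel := Haupt.jK_mul_mu9K N hA hℓN hN
  have hμ : Transcendental (kRes A) (Haupt.mu9K N hA hℓN hN) :=
    Haupt.transcendental_mu9K N hA hℓN hN
  have hn := RRgen.Luroth.finrank_of_mu9 (kRes A) hμ h3 hrel
  have hψ : dedekindPsi N = 12 * finrank (kRes A)⟮Haupt.mu9K N hA hℓN hN⟯ (FRes A N) := by
    rw [← hn, Gink.finrank_jK A N hA hℓN]
  set n := finrank (kRes A)⟮Haupt.mu9K N hA hℓN hN⟯ (FRes A N) with hndef
  have hgg : 2 * (g : ℤ) - 2 = 2 * (n : ℤ) - cuspCount N := by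
    have : (dedekindPsi N : ℤ) = 12 * n := by exact_mod_cast hψ
    rw [this] at h12
    linarith
  have hgle : 2 * (gk : ℤ) - 2 ≤ 2 * (n : ℤ) - cuspCount N := by
    have : (gk : ℤ) ≤ g := by exact_mod_cast hle
    linarith
  obtain ⟨-, -, -, -, h5, -, h7⟩ := RRgen.SqueezeFree.squeeze_mu9 (kRes A) hx h3 hrel
    (cuspCount N) hcusp hFk n hn hgle
  have hgeq : gk = g := by
    have : (gk : ℤ) = g := by linarith
    exact_mod_cast this
  have hS1 : ∀ v : Place (kRes A) (FRes A N), 0 < v.ord (Haupt.mu9K N hA hℓN hN - 1) →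
      v.ord (Haupt.mu9K N hA hℓN hN - 1) = 1 := by
    intro v hv
    have h1 := h7 1 (RRgen.SqueezeFree.one_notMem_S9_of_charP (kRes A)) v
      (by rw [map_one]; exact hv)
    rwa [map_one] at h1
  have h20 : (2 : FRes A N) = 0 := Haupt.two_eq_zero_FRes N hA rfl
  have hpm : Haupt.mu9K N hA hℓN hN + 1 = Haupt.mu9K N hA hℓN hN - 1 := by
    linear_combination h20
  refine ⟨⟨g, hF, hgeq ▸ hFk⟩, hS1, fun v hv => ?_⟩
  rw [hpm] at hv ⊢
  exact hS1 v hv

/-- by-products of the squeeze over the `μ₉`-line: `FRes A N / k(μ̄₉)` is finite separable of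
degree `ψ(N)/12`, and the number of poles of `j̄` is exactly `cuspCount N`. -/
theorem muLine_nine_extra (hℓ : ℓ = 2) (hℓN : ¬ ℓ ∣ N) (hA : A.LiesOverPrime ℓ) (hN : 9 ∣ N)
    (hcusp : Nat.card (Tame.polesOf (K := kRes A) (Gink.jK A N)) ≤ cuspCount N) :
    FiniteDimensional (kRes A)⟮Haupt.mu9K N hA hℓN hN⟯ (FRes A N) ∧
    Algebra.IsSeparable (kRes A)⟮Haupt.mu9K N hA hℓN hN⟯ (FRes A N) ∧
    dedekindPsi N = 12 * finrank (kRes A)⟮Haupt.mu9K N hA hℓN hN⟯ (FRes A N) ∧
    Nat.card (Tame.polesOf (K := kRes A) (Gink.jK A N)) = cuspCount N := by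
  subst hℓ
  obtain ⟨g, hF, hg⟩ := Gin0.exists_isCurveOfGenus_FBar N
  have h12 := Gin0.rh_of_nine_dvd N hN hg
  have hx : Transcendental (kRes A) (Gink.jK A N) := Gink.transcendental_jK A N
  haveI : Algebra.IsSeparable (kRes A)⟮Gink.jK A N⟯ (FRes A N) := Gink.isSeparable_jK A N hA hℓN
  have hFk : IsCurveOfGenus (kRes A) (FRes A N) (RRgen.Canonical.genusOf (kRes A) hx) :=
    RRgen.Canonical.isCurveOfGenus_genusOf (kRes A) hx
  set gk := RRgen.Canonical.genusOf (kRes A) hx with hgk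
  have hle : gk ≤ g := genus_le_level N A hℓN hA hF hFk
  have h3 : (3 : kRes A) ≠ 0 := by
    have := Gink.natCast_ne_zero_kRes (A := A) hA (n := 3) (by norm_num)
    exact_mod_cast this
  have hrel := Haupt.jK_mul_mu9K N hA hℓN hN
  have hμ : Transcendental (kRes A) (Haupt.mu9K N hA hℓN hN) :=
    Haupt.transcendental_mu9K N hA hℓN hN
  have hn := RRgen.Luroth.finrank_of_mu9 (kRes A) hμ h3 hrel
  have hψ : dedekindPsi N = 12 * finrank (kRes A)⟮Haupt.mu9K N hA hℓN hN⟯ (FRes A N) := by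
    rw [← hn, Gink.finrank_jK A N hA hℓN]
  set n := finrank (kRes A)⟮Haupt.mu9K N hA hℓN hN⟯ (FRes A N) with hndef
  have hgle : 2 * (gk : ℤ) - 2 ≤ 2 * (n : ℤ) - cuspCount N := by
    have h1 : (dedekindPsi N : ℤ) = 12 * n := by exact_mod_cast hψ
    rw [h1] at h12
    have : (gk : ℤ) ≤ g := by exact_mod_cast hle
    linarith
  obtain ⟨-, h2', h3', -, -, h6, -⟩ := RRgen.SqueezeFree.squeeze_mu9 (kRes A) hx h3 hrel
    (cuspCount N) hcusp hFk n hn hgle
  exact ⟨h2', h3', hψ, h6⟩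

end Fermat.Agent.S18lib.Mod23
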