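/-
S18lib / Mod23 / MuLineMain (helper9)

**(M-c), unconditional**: `Mod23/MuLine.lean` with the cusp count `hcusp` discharged by
`Gink.card_polesOf_jK_le` (helper4/helper6's (Cusp-k)). The level `N` is the auxiliary level
(`4 ∣ N`, `ℓ = 3`; `9 ∣ N`, `ℓ = 2`).
* `exists_genus_four`, `exists_genus_nine` : **(S2)**
  `∃ g', IsCurveOfGenus ℚ̄ (FBar N) g' ∧ IsCurveOfGenus k (FRes A N) g'`.
* `ord_mu4K_sub_one`, `ord_mu9K_sub_one`, `ord_mu9K_add_one` : **(S1)** (simple zeros).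
* `finiteDimensional_mu4K`, `isSeparable_mu4K`, `dedekindPsi_eq_mu4K`, `card_polesOf_jK_four`
  and the same for `mu9K`.
-/
import Mathlib
import Fermat.Agent.S18lib.Mod23.MuLine
import Fermat.Agent.S18lib.Gink.CuspMain

set_option autoImplicit false
set_option linter.unusedSectionVars false

noncomputable section

namespace Fermat.Agent.S18lib.Mod23

open AlgebraicCurve ModularCurve IntermediateField Module

variable (N : ℕ) [NeZero N] {ℓ : ℕ} [Fact ℓ.Prime]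
variable (A : ValuationSubring (AlgebraicClosure ℚ))

local notation "Qb" => AlgebraicClosure ℚ

section Four

variable (hℓ : ℓ = 3) (hℓN : ¬ ℓ ∣ N) (hA : A.LiesOverPrime ℓ) (hN : 4 ∣ N)

include hℓ hℓN hA hN in
/-- **(S2), `ℓ = 3`, `4 ∣ N`.** -/
theorem exists_genus_four :
    ∃ g' : ℕ, IsCurveOfGenus Qb (FBar N) g' ∧ IsCurveOfGenus (kRes A) (FRes A N) g' :=
  (muLine_four N A hℓ hℓN hA hN (Gink.card_polesOf_jK_le A N hA hℓN)).1

include hℓ in
/-- **(S1), `ℓ = 3`, `4 ∣ N`**: the zeros of `μ̄₄ - 1` are simple. -/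
theorem ord_mu4K_sub_one (v : Place (kRes A) (FRes A N))
    (hv : 0 < v.ord (Haupt.mu4K N hA hℓN hN - 1)) : v.ord (Haupt.mu4K N hA hℓN hN - 1) = 1 :=
  (muLine_four N A hℓ hℓN hA hN (Gink.card_polesOf_jK_le A N hA hℓN)).2 v hv

include hℓ in
theorem finiteDimensional_mu4K :
    FiniteDimensional (kRes A)⟮Haupt.mu4K N hA hℓN hN⟯ (FRes A N) :=
  (muLine_four_extra N A hℓ hℓN hA hN (Gink.card_polesOf_jK_le A N hA hℓN)).1

include hℓ in
theorem isSeparable_mu4K :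
    Algebra.IsSeparable (kRes A)⟮Haupt.mu4K N hA hℓN hN⟯ (FRes A N) :=
  (muLine_four_extra N A hℓ hℓN hA hN (Gink.card_polesOf_jK_le A N hA hℓN)).2.1

include hℓ in
theorem dedekindPsi_eq_mu4K :
    dedekindPsi N = 6 * finrank (kRes A)⟮Haupt.mu4K N hA hℓN hN⟯ (FRes A N) :=
  (muLine_four_extra N A hℓ hℓN hA hN (Gink.card_polesOf_jK_le A N hA hℓN)).2.2.1

include hℓ hℓN hA hN in
theorem card_polesOf_jK_four :
    Nat.card (Tame.polesOf (K := kRes A) (Gink.jK A N)) = cuspCount N :=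
  (muLine_four_extra N A hℓ hℓN hA hN (Gink.card_polesOf_jK_le A N hA hℓN)).2.2.2

end Four

section Nine

variable (hℓ : ℓ = 2) (hℓN : ¬ ℓ ∣ N) (hA : A.LiesOverPrime ℓ) (hN : 9 ∣ N)

include hℓ hℓN hA hN in
/-- **(S2), `ℓ = 2`, `9 ∣ N`.** -/
theorem exists_genus_nine :
    ∃ g' : ℕ, IsCurveOfGenus Qb (FBar N) g' ∧ IsCurveOfGenus (kRes A) (FRes A N) g' :=
  (muLine_nine N A hℓ hℓN hA hN (Gink.card_polesOf_jK_le A N hA hℓN)).1

include hℓ in
/-- **(S1), `ℓ = 2`, `9 ∣ N`**: the zeros of `μ̄₉ - 1` are simple. -/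
theorem ord_mu9K_sub_one (v : Place (kRes A) (FRes A N))
    (hv : 0 < v.ord (Haupt.mu9K N hA hℓN hN - 1)) : v.ord (Haupt.mu9K N hA hℓN hN - 1) = 1 :=
  (muLine_nine N A hℓ hℓN hA hN (Gink.card_polesOf_jK_le A N hA hℓN)).2.1 v hv

include hℓ in
/-- **(S1), `ℓ = 2`, `9 ∣ N`**: the zeros of `μ̄₉ + 1` are simple. -/
theorem ord_mu9K_add_one (v : Place (kRes A) (FRes A N))
    (hv : 0 < v.ord (Haupt.mu9K N hA hℓN hN + 1)) : v.ord (Haupt.mu9K N hA hℓN hN + 1) = 1 :=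
  (muLine_nine N A hℓ hℓN hA hN (Gink.card_polesOf_jK_le A N hA hℓN)).2.2 v hv

include hℓ in
theorem finiteDimensional_mu9K :
    FiniteDimensional (kRes A)⟮Haupt.mu9K N hA hℓN hN⟯ (FRes A N) :=
  (muLine_nine_extra N A hℓ hℓN hA hN (Gink.card_polesOf_jK_le A N hA hℓN)).1

include hℓ in
theorem isSeparable_mu9K :
    Algebra.IsSeparable (kRes A)⟮Haupt.mu9K N hA hℓN hN⟯ (FRes A N) :=
  (muLine_nine_extra N A hℓ hℓN hA hN (Gink.card_polesOf_jK_le A N hA hℓN)).2.1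

include hℓ in
theorem dedekindPsi_eq_mu9K :
    dedekindPsi N = 12 * finrank (kRes A)⟮Haupt.mu9K N hA hℓN hN⟯ (FRes A N) :=
  (muLine_nine_extra N A hℓ hℓN hA hN (Gink.card_polesOf_jK_le A N hA hℓN)).2.2.1

include hℓ hℓN hA hN in
theorem card_polesOf_jK_nine :
    Nat.card (Tame.polesOf (K := kRes A) (Gink.jK A N)) = cuspCount N :=
  (muLine_nine_extra N A hℓ hℓN hA hN (Gink.card_polesOf_jK_le A N hA hℓN)).2.2.2

end Nine

end Fermat.Agent.S18lib.Mod23
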