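/-
S18lib / Mod23 / Residue  (helper1): residue fields of finite `K[X]`-algebras, `K` algebraically
closed: every residue field is `K` (`hres` of `RH/TableCor`, `Norm/Normal`), and the residue
characteristic (`hchar` of `RH/TableCor`).
-/
import Mathlib
import Fermat.Agent.S18lib.RHCount.FiniteChart

set_option autoImplicit false
set_option linter.unusedSectionVars false
set_option linter.style.haveILetI false

noncomputable section

namespace Fermat.Agent.S18lib.Mod23

open Polynomial

section Residue

variable {K : Type*} [Field K] [IsAlgClosed K]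
  {C : Type*} [CommRing C] [Algebra K[X] C] [Module.Finite K[X] C]

/-- the residue field of a maximal ideal of a finite `K[X]`-algebra is `K`. -/
theorem algebraMap_quotient_bijective [Algebra K C] [IsScalarTower K K[X] C]
    (P : Ideal C) [P.IsMaximal] : Function.Bijective (algebraMap K (C ⧸ P)) := by
  letI : Field (C ⧸ P) := Ideal.Quotient.field P
  haveI : Algebra.IsIntegral K[X] C := inferInstance
  haveI hpmax : (P.under K[X]).IsMaximal :=
    Ideal.isMaximal_comap_of_isIntegral_of_isMaximal (R := K[X]) P
  haveI : P.LiesOver (P.under K[X]) := ⟨rfl⟩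
  letI : Field (K[X] ⧸ P.under K[X]) := Ideal.Quotient.field _
  obtain ⟨c, hc⟩ := RHCount.exists_eq_span_X_sub_C (P.under K[X])
  have hsurj : Function.Surjective (algebraMap K (K[X] ⧸ P.under K[X])) := by
    rw [hc]
    exact RHCount.algebraMap_quotient_span_surjective c
  haveI : Module.Finite K (K[X] ⧸ P.under K[X]) :=
    Module.Finite.of_surjective (Algebra.linearMap K (K[X] ⧸ P.under K[X])) hsurj
  haveI : Module.Finite (K[X] ⧸ P.under K[X]) (C ⧸ P) := inferInstance
  haveI : Module.Finite K (C ⧸ P) := Module.Finite.trans (K[X] ⧸ P.under K[X]) (C ⧸ P)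
  exact IsAlgClosed.algebraMap_bijective_of_isIntegral (k := K) (K := C ⧸ P)

/-- `hres`, constant form: every element of a finite `K[X]`-algebra is congruent to a constant
modulo a maximal ideal. -/
theorem exists_const_sub_mem [Algebra K C] [IsScalarTower K K[X] C]
    (P : Ideal C) [P.IsMaximal] (c : C) : ∃ a : K, c - algebraMap K C a ∈ P := by
  obtain ⟨a, ha⟩ := (algebraMap_quotient_bijective (K := K) P).2 (Ideal.Quotient.mk P c)
  refine ⟨a, ?_⟩
  rw [← Ideal.Quotient.eq, ← ha]
  rfl

/-- `hres` of `RH/TableCor`: every element of a finite `K[X]`-algebra is congruent to an element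
of `K[X]` modulo a maximal ideal. -/
theorem exists_poly_sub_mem (P : Ideal C) [P.IsMaximal] (c : C) :
    ∃ a : K[X], c - algebraMap K[X] C a ∈ P := by
  letI : Algebra K C := ((algebraMap K[X] C).comp (algebraMap K K[X])).toAlgebra
  haveI : IsScalarTower K K[X] C := IsScalarTower.of_algebraMap_eq fun _ => rfl
  obtain ⟨a, ha⟩ := exists_const_sub_mem (K := K) P c
  exact ⟨Polynomial.C a, ha⟩

/-- `hres` of `Norm/Normal`. -/
theorem algebraMap_quotient_surjective [Algebra K C] [IsScalarTower K K[X] C]
    (P : Ideal C) (hP : P.IsMaximal) : Function.Surjective (algebraMap K (C ⧸ P)) :=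
  haveI := hP
  (algebraMap_quotient_bijective (K := K) P).2

end Residue

section Char

variable {K : Type*} [Field K]

/-- `hchar` of `RH/TableCor`: the residue characteristic of a proper ideal of `K[X]`. -/
theorem natCast_quotient_eq_zero_iff (ℓ : ℕ) [CharP K ℓ] (p : Ideal K[X]) (hp : p ≠ ⊤) (n : ℕ) :
    ((n : ℕ) : K[X] ⧸ p) = 0 ↔ ℓ ∣ n := by
  haveI : Nontrivial (K[X] ⧸ p) := Ideal.Quotient.nontrivial_iff.mpr hp
  have hinj : Function.Injective (algebraMap K (K[X] ⧸ p)) := (algebraMap K (K[X] ⧸ p)).injective
  haveI : CharP (K[X] ⧸ p) ℓ := charP_of_injective_algebraMap hinj ℓ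
  exact CharP.cast_eq_zero_iff (K[X] ⧸ p) ℓ n

end Char

end Fermat.Agent.S18lib.Mod23
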