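/-
S18lib / Mod23 / Tower  (helper1): towers of integral closures.

`R` a Dedekind domain with fraction field `K₀`, `L ⊆ L'` fields, `L'` finite separable over `K₀`.
`B = integralClosure R L`, `B' = integralClosure R L'`.  The algebra structure `B → B'`
(`towerAlgebra`, a local-instance `def`) with all the instances needed by the abstract
Dedekind-tower lemmas of `S18lib/RH/Table.lean`, `S18lib/Norm/*`.
-/
import Mathlib
import Fermat.Agent.ProgramR.Alg.TraceDual

set_option autoImplicit false
set_option linter.unusedSectionVars false
set_option linter.style.haveILetI false

noncomputable section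

namespace Fermat.Agent.S18lib.Mod23

open Module nonZeroDivisors

attribute [local instance] FractionRing.liftAlgebra FractionRing.isScalarTower_liftAlgebra

section Tower

variable (R : Type*) [CommRing R]
  (L L' : Type*) [Field L] [Field L'] [Algebra R L] [Algebra R L'] [Algebra L L']
  [IsScalarTower R L L']

/-- the map `integralClosure R L → integralClosure R L'` as an algebra structure
(to be used as a local instance). -/
@[reducible] def towerAlgebra : Algebra (integralClosure R L) (integralClosure R L') :=
  (AlgHom.mapIntegralClosure (IsScalarTower.toAlgHom R L L')).toAlgebra

attribute [local instance] towerAlgebra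

theorem coe_algebraMap_tower (b : integralClosure R L) :
    ((algebraMap (integralClosure R L) (integralClosure R L') b : integralClosure R L') : L') =
      algebraMap L L' (b : L) := rfl

instance isScalarTower_tower_bot : IsScalarTower R (integralClosure R L) (integralClosure R L') :=
  IsScalarTower.of_algebraMap_eq fun r => by
    apply Subtype.ext
    rw [coe_algebraMap_tower]
    exact (IsScalarTower.algebraMap_apply R L L' r)

instance isScalarTower_tower_top :
    IsScalarTower (integralClosure R L) (integralClosure R L') L' :=
  IsScalarTower.of_algebraMap_eq fun _ => rfl

theorem algebraMap_tower_injective :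
    Function.Injective (algebraMap (integralClosure R L) (integralClosure R L')) := by
  intro a b hab
  have h := congrArg (fun x : integralClosure R L' => (x : L')) hab
  simp only [coe_algebraMap_tower] at h
  exact Subtype.ext ((algebraMap L L').injective h)

instance faithfulSMul_tower : FaithfulSMul (integralClosure R L) (integralClosure R L') :=
  (faithfulSMul_iff_algebraMap_injective _ _).mpr (algebraMap_tower_injective R L L')

/-- `integralClosure R L'` is the integral closure of `integralClosure R L` in `L'`. -/
theorem isIntegralClosure_tower :
    IsIntegralClosure (integralClosure R L') (integralClosure R L) L' :=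
  IsIntegralClosure.tower_top (R := R) (A := integralClosure R L) (B := L')
    (C := integralClosure R L')

theorem isIntegral_tower : Algebra.IsIntegral (integralClosure R L) (integralClosure R L') :=
  haveI := isIntegralClosure_tower R L L'
  IsIntegralClosure.isIntegral_algebra (integralClosure R L) L'

end Tower

section Closure

variable (R K₀ : Type*) [CommRing R] [IsDedekindDomain R] [Field K₀] [Algebra R K₀]
  [IsFractionRing R K₀]
  (L : Type*) [Field L] [Algebra R L] [Algebra K₀ L] [IsScalarTower R K₀ L]
  [FiniteDimensional K₀ L] [Algebra.IsSeparable K₀ L]

include K₀ in
theorem isDedekindDomain_closure : IsDedekindDomain (integralClosure R L) :=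
  integralClosure.isDedekindDomain R K₀ L

include K₀ in
theorem finite_closure : Module.Finite R (integralClosure R L) :=
  IsIntegralClosure.finite R K₀ L (integralClosure R L)

include K₀ in
theorem isFractionRing_closure : IsFractionRing (integralClosure R L) L :=
  integralClosure.isFractionRing_of_finite_extension K₀ L

include K₀ in
theorem faithfulSMul_field : FaithfulSMul R L := by
  rw [faithfulSMul_iff_algebraMap_injective, IsScalarTower.algebraMap_eq R K₀ L]
  exact (algebraMap K₀ L).injective.comp (IsFractionRing.injective R K₀)

include K₀ in
theorem isTorsionFree_closure : IsTorsionFree R (integralClosure R L) := by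
  haveI := faithfulSMul_field R K₀ L
  exact IsIntegralClosure.isTorsionFree R L

include K₀ in
theorem finrank_closure : finrank R (integralClosure R L) = finrank K₀ L := by
  haveI := isFractionRing_closure R K₀ L
  exact (IsFractionRing.finrank_eq R K₀ (integralClosure R L) L).symm

include K₀ in
theorem isSeparable_closure :
    haveI := isDedekindDomain_closure R K₀ L
    haveI := isTorsionFree_closure R K₀ L
    Algebra.IsSeparable (FractionRing R) (FractionRing (integralClosure R L)) := by
  haveI := isDedekindDomain_closure R K₀ L
  haveI := isTorsionFree_closure R K₀ L
  haveI := finite_closure R K₀ L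
  haveI := isFractionRing_closure R K₀ L
  exact Fermat.Agent.ProgramR.Alg.isSeparable_fractionRing_aux R K₀ L (integralClosure R L)

end Closure

section DedekindTower

variable (R K₀ : Type*) [CommRing R] [IsDedekindDomain R] [Field K₀] [Algebra R K₀]
  [IsFractionRing R K₀]
  (L L' : Type*) [Field L] [Field L'] [Algebra R L] [Algebra R L'] [Algebra L L']
  [IsScalarTower R L L'] [Algebra K₀ L] [Algebra K₀ L'] [IsScalarTower R K₀ L]
  [IsScalarTower R K₀ L'] [IsScalarTower K₀ L L']
  [FiniteDimensional K₀ L'] [Algebra.IsSeparable K₀ L']

attribute [local instance] towerAlgebra

include K₀ L' in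
theorem finiteDimensional_bot : FiniteDimensional K₀ L :=
  FiniteDimensional.left K₀ L L'

include K₀ L' in
theorem isSeparable_bot : Algebra.IsSeparable K₀ L :=
  Algebra.isSeparable_tower_bot_of_isSeparable K₀ L L'

include K₀ in
theorem isSeparable_top : Algebra.IsSeparable L L' :=
  Algebra.isSeparable_tower_top_of_isSeparable K₀ L L'

include K₀ in
theorem finite_tower : Module.Finite (integralClosure R L) (integralClosure R L') := by
  haveI := finite_closure R K₀ L'
  exact Module.Finite.of_restrictScalars_finite R (integralClosure R L) (integralClosure R L')

theorem isTorsionFree_tower : IsTorsionFree (integralClosure R L) (integralClosure R L') :=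
  Module.isTorsionFree_iff_algebraMap_injective.mpr (algebraMap_tower_injective R L L')

include K₀ in
theorem finrank_tower :
    finrank (integralClosure R L) (integralClosure R L') = finrank L L' := by
  haveI := finiteDimensional_bot K₀ L L'
  haveI := isSeparable_bot K₀ L L'
  haveI := isFractionRing_closure R K₀ L
  haveI := isFractionRing_closure R K₀ L'
  exact (IsFractionRing.finrank_eq (integralClosure R L) L (integralClosure R L') L').symm

include K₀ in
theorem isSeparable_tower :
    haveI := finiteDimensional_bot K₀ L L'
    haveI := isSeparable_bot K₀ L L'
    haveI := isDedekindDomain_closure R K₀ L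
    haveI := isDedekindDomain_closure R K₀ L'
    Algebra.IsSeparable (FractionRing (integralClosure R L))
      (FractionRing (integralClosure R L')) := by
  haveI := finiteDimensional_bot K₀ L L'
  haveI := isSeparable_bot K₀ L L'
  haveI := isSeparable_top K₀ L L'
  haveI := isDedekindDomain_closure R K₀ L
  haveI := isDedekindDomain_closure R K₀ L'
  haveI := isFractionRing_closure R K₀ L
  haveI := isFractionRing_closure R K₀ L'
  haveI := finite_tower R K₀ L L'
  exact Fermat.Agent.ProgramR.Alg.isSeparable_fractionRing_aux (integralClosure R L) L L'
    (integralClosure R L')

end DedekindTower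

end Fermat.Agent.S18lib.Mod23
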