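/-
S18lib / Mod23 / Charts  (helper1): towers of finite charts `BFin K F ⊆ BFin K F'` over `K[X]`
for function fields `F ⊆ F'` (finite separable over `RatFunc K`).

* Section `Transc`: for `x : F`, `x' : F'` transcendental with `algebraMap F F' x = x'`, the
  canonical structures `polyAlgebra`, `ratFuncAlgebra` of `RRgen/Canonical` are compatible with
  `Algebra F F'`.
* Section `Charts`: the instance list of the Dedekind-tower lemmas (`RH/Table`, `RH/TableCor`,
  `Norm/Normal`) for `A = K[X]`, `B = BFin K F`, `C = BFin K F'`.
* Section `TwoTowers`: `RH.exists_pow_dvd_sq_and_not_dvd_differentIdeal` (Table') for three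
  function fields `F, F₁ ⊆ F'`.
-/
import Mathlib
import Fermat.Agent.S18lib.Mod23.Tower
import Fermat.Agent.S18lib.Mod23.Residue
import Fermat.Agent.S18lib.RRgen.Canonical
import Fermat.Agent.S18lib.RH.TableCor

set_option autoImplicit false
set_option linter.unusedSectionVars false
set_option linter.style.haveILetI false

noncomputable section

namespace Fermat.Agent.S18lib.Mod23

open Module Polynomial nonZeroDivisors
open Fermat.Agent.S18lib.RRgen.Canonical

attribute [local instance] FractionRing.liftAlgebra FractionRing.isScalarTower_liftAlgebra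
  Ideal.Quotient.field

section Transc

variable (K : Type*) [Field K] {F F' : Type*} [Field F] [Field F'] [Algebra K F] [Algebra K F']
  [Algebra F F'] [IsScalarTower K F F'] {x : F} {x' : F'}

/-- the `K[X]`-structures `X ↦ x`, `X ↦ x'` are compatible with `F → F'` when `x ↦ x'`. -/
theorem isScalarTower_poly_tower (hxx' : algebraMap F F' x = x') :
    letI := polyAlgebra K x
    letI := polyAlgebra K x'
    IsScalarTower K[X] F F' := by
  letI := polyAlgebra K x
  letI := polyAlgebra K x'
  refine IsScalarTower.of_algebraMap_eq fun p => ?_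
  rw [algebraMap_polyAlgebra, algebraMap_polyAlgebra, ← hxx']
  exact Polynomial.aeval_algebraMap_apply F' x p

/-- the `RatFunc K`-structures `X ↦ x`, `X ↦ x'` are compatible with `F → F'` when `x ↦ x'`. -/
theorem isScalarTower_ratFunc_tower (hx : Transcendental K x) (hx' : Transcendental K x')
    (hxx' : algebraMap F F' x = x') :
    letI := ratFuncAlgebra K hx
    letI := ratFuncAlgebra K hx'
    IsScalarTower (RatFunc K) F F' := by
  letI := polyAlgebra K x
  letI := polyAlgebra K x'
  letI := ratFuncAlgebra K hx
  letI := ratFuncAlgebra K hx'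
  haveI := isScalarTower_poly_tower K hxx'
  haveI := isScalarTower_poly_ratFunc K hx
  haveI := isScalarTower_poly_ratFunc K hx'
  refine IsScalarTower.of_algebraMap_eq' ?_
  apply IsLocalization.ringHom_ext (nonZeroDivisors K[X])
  refine RingHom.ext fun p => ?_
  simp only [RingHom.coe_comp, Function.comp_apply]
  rw [← IsScalarTower.algebraMap_apply K[X] (RatFunc K) F',
    ← IsScalarTower.algebraMap_apply K[X] (RatFunc K) F,
    ← IsScalarTower.algebraMap_apply K[X] F F']

include K in
/-- `x'` is transcendental as soon as `x` is. -/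
theorem transcendental_of_tower (hx : Transcendental K x) (hxx' : algebraMap F F' x = x') :
    Transcendental K x' := by
  rw [← hxx']
  exact (transcendental_algebraMap_iff (algebraMap F F').injective).mpr hx

end Transc

section Charts

variable (K : Type*) [Field K]
  (F F' : Type*) [Field F] [Field F']
  [Algebra K[X] F] [Algebra K[X] F'] [Algebra (RatFunc K) F] [Algebra (RatFunc K) F']
  [IsScalarTower K[X] (RatFunc K) F] [IsScalarTower K[X] (RatFunc K) F']
  [Algebra F F'] [IsScalarTower (RatFunc K) F F']
  [FiniteDimensional (RatFunc K) F] [Algebra.IsSeparable (RatFunc K) F]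
  [FiniteDimensional (RatFunc K) F'] [Algebra.IsSeparable (RatFunc K) F']

/-- the polynomial structures are compatible as soon as the `RatFunc K`-structures are. -/
theorem isScalarTower_poly_of_ratFunc : IsScalarTower K[X] F F' :=
  IsScalarTower.of_algebraMap_eq fun p => by
    rw [IsScalarTower.algebraMap_apply K[X] (RatFunc K) F',
      IsScalarTower.algebraMap_apply (RatFunc K) F F',
      ← IsScalarTower.algebraMap_apply K[X] (RatFunc K) F]

theorem isDedekindDomain_chart : IsDedekindDomain (integralClosure K[X] F) :=
  isDedekindDomain_closure K[X] (RatFunc K) F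

theorem finite_chart : Module.Finite K[X] (integralClosure K[X] F) :=
  finite_closure K[X] (RatFunc K) F

theorem isTorsionFree_chart : IsTorsionFree K[X] (integralClosure K[X] F) :=
  isTorsionFree_closure K[X] (RatFunc K) F

theorem isFractionRing_chart : IsFractionRing (integralClosure K[X] F) F :=
  isFractionRing_closure K[X] (RatFunc K) F

attribute [local instance] isDedekindDomain_chart finite_chart isTorsionFree_chart
  isFractionRing_chart

theorem isSeparable_chart :
    Algebra.IsSeparable (FractionRing K[X]) (FractionRing (integralClosure K[X] F)) :=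
  isSeparable_closure K[X] (RatFunc K) F

variable [IsScalarTower K[X] F F']

attribute [local instance] towerAlgebra

theorem finite_chart_tower :
    Module.Finite (integralClosure K[X] F) (integralClosure K[X] F') :=
  finite_tower K[X] (RatFunc K) F F'

theorem isTorsionFree_chart_tower :
    IsTorsionFree (integralClosure K[X] F) (integralClosure K[X] F') :=
  isTorsionFree_tower K[X] F F'

attribute [local instance] finite_chart_tower isTorsionFree_chart_tower

theorem isSeparable_chart_tower :
    Algebra.IsSeparable (FractionRing (integralClosure K[X] F))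
      (FractionRing (integralClosure K[X] F')) :=
  isSeparable_tower K[X] (RatFunc K) F F'

theorem finrank_chart_tower :
    finrank (integralClosure K[X] F) (integralClosure K[X] F') = finrank F F' :=
  finrank_tower K[X] (RatFunc K) F F'

include K in
theorem isSeparable_field_tower : Algebra.IsSeparable F F' :=
  isSeparable_top (RatFunc K) F F'

include K in
theorem finiteDimensional_field_tower : FiniteDimensional F F' :=
  Module.Finite.of_restrictScalars_finite (RatFunc K) F F'

end Charts

section TwoTowers

variable (K : Type*) [Field K] [IsAlgClosed K]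
  (F F₁ F' : Type*) [Field F] [Field F₁] [Field F']
  [Algebra K[X] F] [Algebra K[X] F₁] [Algebra K[X] F']
  [Algebra (RatFunc K) F] [Algebra (RatFunc K) F₁] [Algebra (RatFunc K) F']
  [IsScalarTower K[X] (RatFunc K) F] [IsScalarTower K[X] (RatFunc K) F₁]
  [IsScalarTower K[X] (RatFunc K) F']
  [Algebra F F'] [IsScalarTower (RatFunc K) F F'] [IsScalarTower K[X] F F']
  [Algebra F₁ F'] [IsScalarTower (RatFunc K) F₁ F'] [IsScalarTower K[X] F₁ F']
  [FiniteDimensional (RatFunc K) F] [Algebra.IsSeparable (RatFunc K) F]
  [FiniteDimensional (RatFunc K) F₁] [Algebra.IsSeparable (RatFunc K) F₁]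
  [FiniteDimensional (RatFunc K) F'] [Algebra.IsSeparable (RatFunc K) F']

attribute [local instance] isDedekindDomain_chart finite_chart isTorsionFree_chart
  isFractionRing_chart towerAlgebra finite_chart_tower isTorsionFree_chart_tower

/-- **(Table') for function fields**: `F, F₁ ⊆ F'` finite separable over `K(x)`, `K` algebraically
closed of characteristic `ℓ`; `P_C` a prime of the finite chart of `F'` over `X = c`, `P_B`, `P₁`
its restrictions to the finite charts of `F`, `F₁`.  If the auxiliary tower through `F₁` has
`(e(P₁ | c), e(P_C | P₁), d(P₁ | K[X]) ≤ ·) = (3, 2, 3)` for `ℓ = 3` resp. `(4, 3, 4)` for `ℓ = 2`,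
then some power `P_C ^ m` divides `P_B² C` but not the different of `C / B`. -/
theorem exists_pow_dvd_sq_and_not_dvd_differentIdeal_charts {ℓ : ℕ} [CharP K ℓ] (c : K)
    (P_C : Ideal (integralClosure K[X] F')) [P_C.IsPrime]
    (hc : algebraMap K[X] (integralClosure K[X] F') (X - C c) ∈ P_C) {D₁ : ℕ}
    (h : (ℓ = 3 ∧ (Ideal.span {(X - C c : K[X])}).ramificationIdx'
          (P_C.under (integralClosure K[X] F₁)) = 3 ∧
        (P_C.under (integralClosure K[X] F₁)).ramificationIdx' P_C = 2 ∧ D₁ = 3) ∨
      (ℓ = 2 ∧ (Ideal.span {(X - C c : K[X])}).ramificationIdx'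
          (P_C.under (integralClosure K[X] F₁)) = 4 ∧
        (P_C.under (integralClosure K[X] F₁)).ramificationIdx' P_C = 3 ∧ D₁ = 4))
    (hD₁ : RH.diffExp K[X] (P_C.under (integralClosure K[X] F₁)) ≤ D₁) :
    ∃ m : ℕ, P_C ^ m ∣ ((P_C.under (integralClosure K[X] F)) ^ 2).map
        (algebraMap (integralClosure K[X] F) (integralClosure K[X] F')) ∧
      ¬ P_C ^ m ∣ differentIdeal (integralClosure K[X] F) (integralClosure K[X] F') := by
  haveI := isSeparable_chart K F
  haveI := isSeparable_chart K F₁
  haveI := isSeparable_chart K F'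
  haveI := isSeparable_chart_tower K F F'
  haveI := isSeparable_chart_tower K F₁ F'
  haveI hpmax := RHCount.span_X_sub_C_isMaximal' (K := K) c
  have hp0 := RHCount.span_X_sub_C_ne_bot (K := K) c
  -- `P_C` lies over `(X - c)`
  have hunder : P_C.under K[X] = Ideal.span {(X - C c : K[X])} := by
    have hle : Ideal.span {(X - C c : K[X])} ≤ P_C.under K[X] := by
      rw [Ideal.span_le, Set.singleton_subset_iff]
      exact hc
    have hne : P_C.under K[X] ≠ ⊤ := (Ideal.comap_isPrime _ P_C).ne_top
    exact (hpmax.eq_of_le hne hle).symm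
  haveI : P_C.LiesOver (P_C.under (integralClosure K[X] F)) := ⟨rfl⟩
  haveI : P_C.LiesOver (P_C.under (integralClosure K[X] F₁)) := ⟨rfl⟩
  haveI : (P_C.under (integralClosure K[X] F)).LiesOver (Ideal.span {(X - C c : K[X])}) :=
    ⟨by rw [Ideal.under_under, hunder]⟩
  haveI : (P_C.under (integralClosure K[X] F₁)).LiesOver (Ideal.span {(X - C c : K[X])}) :=
    ⟨by rw [Ideal.under_under, hunder]⟩
  have hPC0 : P_C ≠ ⊥ := by
    intro h0
    apply hp0
    rw [← hunder, h0]
    exact Ideal.under_bot K[X] (integralClosure K[X] F')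
  haveI : P_C.IsMaximal := Ideal.IsPrime.isMaximal inferInstance hPC0
  exact RH.exists_pow_dvd_sq_and_not_dvd_differentIdeal K[X] (integralClosure K[X] F)
    (integralClosure K[X] F₁) (integralClosure K[X] F') (Ideal.span {(X - C c : K[X])})
    (P_C.under (integralClosure K[X] F)) (P_C.under (integralClosure K[X] F₁)) P_C hp0
    (fun b => exists_poly_sub_mem (K := K) P_C b)
    (natCast_quotient_eq_zero_iff ℓ _ hpmax.ne_top) h hD₁

/-- **`hTable` of `Norm.exists_smul_lifts` for function fields**: if every prime `P_C` of the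
finite chart of `F'` over `X = c` satisfies the numerical hypotheses of (Table'), then for every
prime `Q ∋ X - c` of the finite chart of `F` there are a prime `Q''` of the chart of `F'` and `m`
with `Q'' ^ m ∣ Q² C` and `¬ Q'' ^ m ∣ Diff(C / B)`. -/
theorem forall_exists_pow_dvd_sq_and_not_dvd_differentIdeal_charts {ℓ : ℕ} [CharP K ℓ] (c : K)
    {D₁ : ℕ}
    (H : ∀ (P_C : Ideal (integralClosure K[X] F')), P_C.IsPrime →
      algebraMap K[X] (integralClosure K[X] F') (X - C c) ∈ P_C →
      ((ℓ = 3 ∧ (Ideal.span {(X - C c : K[X])}).ramificationIdx'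
          (P_C.under (integralClosure K[X] F₁)) = 3 ∧
        (P_C.under (integralClosure K[X] F₁)).ramificationIdx' P_C = 2 ∧ D₁ = 3) ∨
      (ℓ = 2 ∧ (Ideal.span {(X - C c : K[X])}).ramificationIdx'
          (P_C.under (integralClosure K[X] F₁)) = 4 ∧
        (P_C.under (integralClosure K[X] F₁)).ramificationIdx' P_C = 3 ∧ D₁ = 4)) ∧
      RH.diffExp K[X] (P_C.under (integralClosure K[X] F₁)) ≤ D₁)
    (Q : Ideal (integralClosure K[X] F)) (hQ : Q.IsPrime)
    (hcQ : algebraMap K[X] (integralClosure K[X] F) (X - C c) ∈ Q) :
    ∃ (Q'' : Ideal (integralClosure K[X] F')) (m : ℕ),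
      Q'' ^ m ∣ (Q ^ 2).map (algebraMap (integralClosure K[X] F) (integralClosure K[X] F')) ∧
      ¬ Q'' ^ m ∣ differentIdeal (integralClosure K[X] F) (integralClosure K[X] F') := by
  haveI := hQ
  haveI := isIntegral_tower K[X] F F'
  obtain ⟨Q'', -, hQ''prime, hQ''over⟩ := Ideal.exists_ideal_over_prime_of_isIntegral Q
    (⊥ : Ideal (integralClosure K[X] F')) (by
      rw [Ideal.comap_bot_of_injective _ (algebraMap_tower_injective K[X] F F')]
      exact bot_le)
  haveI := hQ''prime
  have hc'' : algebraMap K[X] (integralClosure K[X] F') (X - C c) ∈ Q'' := by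
    rw [IsScalarTower.algebraMap_apply K[X] (integralClosure K[X] F) (integralClosure K[X] F'),
      ← Ideal.mem_comap, hQ''over]
    exact hcQ
  obtain ⟨h, hD₁⟩ := H Q'' hQ''prime hc''
  obtain ⟨m, hm1, hm2⟩ :=
    exists_pow_dvd_sq_and_not_dvd_differentIdeal_charts K F F₁ F' c Q'' hc'' h hD₁
  refine ⟨Q'', m, ?_, hm2⟩
  have : Q''.under (integralClosure K[X] F) = Q := hQ''over
  rwa [this] at hm1

end TwoTowers

end Fermat.Agent.S18lib.Mod23
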