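/-
S18lib / Mod23 / NormZeroInst  (helper9)

**Instance layer of `Mod23.wildInput`** = `Norm.mapDomain_le_count_of_tower` (helper8) instantiated
in the modular situation `L = Q̄`, `k = kRes A`, `F = FBar N`, `Fk = FRes A N`, `F' = FBar N'`,
`Fk' = FRes A N'` (`N ∣ N'`, `ℓ ∤ N'`), `c = 0`, `D := V.datum N ..`, `G' := V.gaussDatum N' ..`,
canonical charts `BFin` at `j` / `j̄` on all four fields, level algebra `V.levelAlgebraL/K`
(helper6/helper7), chart tower `Mod23.towerAlgebra` (helper1).

`wildInput_of_tower` : `G.WildInput N A _ hA h` (helper5's Place form, the only input of S18 for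
`ℓ = 2, 3`) from
* `hS2g`   : (S2) at the level above, `∃ g', IsCurveOfGenus Q̄ (FBar N') g' ∧
             IsCurveOfGenus k (FRes A N') g'`  (`Mod23.exists_genus_four / _nine`);
* `hTable` : helper1's `Mod23.hTable_three / _two` conclusion for the charts
             `integralClosure k[X] (FRes A N) ⊆ integralClosure k[X] (FRes A N')` at `c = 0`
             (stated under the `letI` chain it needs).
Everything else (`hO hred hdeg' hbase hdeg hpole hx hS2 hres d0 hd0`, chart → Place conversion) is
discharged here.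
-/
import Mathlib
import Fermat.Agent.S18lib.Norm.Tower
import Fermat.Agent.S18lib.Mod23.Charts
import Fermat.Agent.S18lib.Mod23.Residue
import Fermat.Agent.S18lib.V.GaussU.LevelAlg
import Fermat.Agent.S18lib.G.TwoThree
import Fermat.Agent.S18lib.G.WildCharts
import Fermat.Agent.S18lib.Weak.Level

set_option autoImplicit false
set_option linter.style.haveILetI false
set_option linter.unusedSectionVars false

noncomputable section

namespace Fermat.Agent.S18lib.Mod23

open AlgebraicCurve ModularCurve IntermediateField Polynomial Module IsDedekindDomain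
  UniqueFactorizationMonoid
open Fermat.Agent.ProgramR Fermat.Agent.S18lib.RRgen.Canonical

attribute [local instance] FractionRing.liftAlgebra FractionRing.isScalarTower_liftAlgebra

variable {N N' : ℕ} [NeZero N] [NeZero N'] {ℓ : ℕ} [Fact ℓ.Prime]
variable (A : ValuationSubring (AlgebraicClosure ℚ))

local notation "Qb" => AlgebraicClosure ℚ
local notation "kA" => IsLocalRing.ResidueField A

set_option maxHeartbeats 1000000 in
theorem wildInput_of_tower (hNN' : N ∣ N') (hℓN' : ¬ ℓ ∣ N') (hA : A.LiesOverPrime ℓ)
    (h : ReductionInputsModL A N)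
    (hS2g : ∃ g' : ℕ, IsCurveOfGenus Qb (FBar N') g' ∧ IsCurveOfGenus kA (FRes A N') g')
    (hTable :
      letI := polyAlgebra kA (Gink.jK A N)
      letI := polyAlgebra kA (Gink.jK A N')
      letI := V.levelAlgebraK (N := N) (N' := N') A hNN'
      letI := V.levelModuleK (N := N) (N' := N') A hNN'
      haveI : IsScalarTower kA (FRes A N) (FRes A N') := V.isScalarTower_levelK A hNN'
      haveI := isScalarTower_poly_tower kA (V.algebraMap_levelK_jK A hNN')
      letI := towerAlgebra kA[X] (FRes A N) (FRes A N')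
      haveI : Algebra.IsSeparable (kRes A)⟮Gink.jK A N⟯ (FRes A N) :=
        Gink.isSeparable_jK A N hA (V.not_dvd_of_level_dvd hNN' hℓN')
      haveI : Algebra.IsSeparable (kRes A)⟮Gink.jK A N'⟯ (FRes A N') :=
        Gink.isSeparable_jK A N' hA hℓN'
      letI := ratFuncAlgebra kA (Gink.transcendental_jK A N)
      haveI := isScalarTower_poly_ratFunc kA (Gink.transcendental_jK A N)
      haveI := isScalarTower_const_ratFunc kA (Gink.transcendental_jK A N)
      haveI := finiteDimensional_ratFunc kA (Gink.transcendental_jK A N)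
      haveI := isSeparable_ratFunc kA (Gink.transcendental_jK A N)
      letI := ratFuncAlgebra kA (Gink.transcendental_jK A N')
      haveI := isScalarTower_poly_ratFunc kA (Gink.transcendental_jK A N')
      haveI := isScalarTower_const_ratFunc kA (Gink.transcendental_jK A N')
      haveI := finiteDimensional_ratFunc kA (Gink.transcendental_jK A N')
      haveI := isSeparable_ratFunc kA (Gink.transcendental_jK A N')
      haveI := isDedekindDomain_BFin kA (FRes A N)
      haveI := isDedekindDomain_BFin kA (FRes A N')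
      haveI := isTorsionFree_tower kA[X] (FRes A N) (FRes A N')
      ∀ Q : Ideal (integralClosure kA[X] (FRes A N)), Q.IsPrime →
        algebraMap kA[X] (integralClosure kA[X] (FRes A N)) (X - C 0) ∈ Q →
        ∃ (Q'' : Ideal (integralClosure kA[X] (FRes A N'))) (m : ℕ),
          Q'' ^ m ∣ (Q ^ 2).map (algebraMap (integralClosure kA[X] (FRes A N))
            (integralClosure kA[X] (FRes A N'))) ∧
          ¬ Q'' ^ m ∣ differentIdeal (integralClosure kA[X] (FRes A N))
            (integralClosure kA[X] (FRes A N'))) :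
    G.WildInput N A (V.not_dvd_of_level_dvd hNN' hℓN') hA h := by
  have hℓN : ¬ ℓ ∣ N := V.not_dvd_of_level_dvd hNN' hℓN'
  haveI : Algebra.IsSeparable (kRes A)⟮Gink.jK A N⟯ (FRes A N) := Gink.isSeparable_jK A N hA hℓN
  haveI : Algebra.IsSeparable (kRes A)⟮Gink.jK A N'⟯ (FRes A N') :=
    Gink.isSeparable_jK A N' hA hℓN'
  haveI : IsAlgClosed kA := Gink.isAlgClosed_residueField A
  haveI : Infinite kA := IsAlgClosed.instInfinite
  -- transcendence
  have hxL : Transcendental Qb (Gin0.jF N) := Gin0.transcendental_jF N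
  have hxk : Transcendental kA (Gink.jK A N) := Gink.transcendental_jK A N
  have hxL' : Transcendental Qb (Gin0.jF N') := Gin0.transcendental_jF N'
  have hxk' : Transcendental kA (Gink.jK A N') := Gink.transcendental_jK A N'
  -- level `N`, characteristic `0`
  letI := polyAlgebra Qb (Gin0.jF N)
  letI := ratFuncAlgebra Qb hxL
  haveI := isScalarTower_poly_ratFunc Qb hxL
  haveI := isScalarTower_const_ratFunc Qb hxL
  haveI := finiteDimensional_ratFunc Qb hxL
  haveI := isSeparable_ratFunc Qb hxL
  haveI := isScalarTower_const_poly Qb (FBar N)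
  haveI := isScalarTower_const_BFin Qb (FBar N)
  haveI := isTorsionFree_BFin Qb (FBar N)
  haveI := isFractionRing_BFin Qb (FBar N)
  haveI := isDedekindDomain_BFin Qb (FBar N)
  haveI := finite_BFin Qb (FBar N)
  -- level `N`, characteristic `ℓ`
  letI := polyAlgebra kA (Gink.jK A N)
  letI := ratFuncAlgebra kA hxk
  haveI := isScalarTower_poly_ratFunc kA hxk
  haveI := isScalarTower_const_ratFunc kA hxk
  haveI := finiteDimensional_ratFunc kA hxk
  haveI := isSeparable_ratFunc kA hxk
  haveI := isScalarTower_const_poly kA (FRes A N)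
  haveI := isScalarTower_const_BFin kA (FRes A N)
  haveI := isTorsionFree_BFin kA (FRes A N)
  haveI := isFractionRing_BFin kA (FRes A N)
  haveI := isDedekindDomain_BFin kA (FRes A N)
  haveI := finite_BFin kA (FRes A N)
  -- the level above
  letI := V.levelAlgebraL (N := N) (N' := N') hNN'
  letI := V.levelModuleL (N := N) (N' := N') hNN'
  letI := V.levelAlgebraK (N := N) (N' := N') A hNN'
  letI := V.levelModuleK (N := N) (N' := N') A hNN'
  haveI : IsScalarTower Qb (FBar N) (FBar N') := V.isScalarTower_levelL hNN'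
  haveI : IsScalarTower kA (FRes A N) (FRes A N') := V.isScalarTower_levelK A hNN'
  have hjL : algebraMap (FBar N) (FBar N') (Gin0.jF N) = Gin0.jF N' := V.algebraMap_levelL_jF hNN'
  have hjK : algebraMap (FRes A N) (FRes A N') (Gink.jK A N) = Gink.jK A N' :=
    V.algebraMap_levelK_jK A hNN'
  letI := polyAlgebra Qb (Gin0.jF N')
  letI := ratFuncAlgebra Qb hxL'
  haveI := isScalarTower_poly_ratFunc Qb hxL'
  haveI := isScalarTower_const_ratFunc Qb hxL'
  haveI := finiteDimensional_ratFunc Qb hxL'
  haveI := isSeparable_ratFunc Qb hxL'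
  haveI := isScalarTower_const_poly Qb (FBar N')
  letI := polyAlgebra kA (Gink.jK A N')
  letI := ratFuncAlgebra kA hxk'
  haveI := isScalarTower_poly_ratFunc kA hxk'
  haveI := isScalarTower_const_ratFunc kA hxk'
  haveI := finiteDimensional_ratFunc kA hxk'
  haveI := isSeparable_ratFunc kA hxk'
  haveI := isScalarTower_const_poly kA (FRes A N')
  haveI := isScalarTower_const_BFin kA (FRes A N')
  haveI := isTorsionFree_BFin kA (FRes A N')
  haveI := isFractionRing_BFin kA (FRes A N')
  haveI := isDedekindDomain_BFin kA (FRes A N')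
  haveI := finite_BFin kA (FRes A N')
  haveI := isScalarTower_poly_tower Qb hjL
  haveI := isScalarTower_poly_tower kA hjK
  haveI := isScalarTower_ratFunc_tower Qb hxL hxL' hjL
  haveI := isScalarTower_ratFunc_tower kA hxk hxk' hjK
  haveI := finiteDimensional_field_tower Qb (FBar N) (FBar N')
  haveI := finiteDimensional_field_tower kA (FRes A N) (FRes A N')
  haveI := isSeparable_field_tower kA (FRes A N) (FRes A N')
  letI := towerAlgebra kA[X] (FRes A N) (FRes A N')
  haveI := isIntegralClosure_tower kA[X] (FRes A N) (FRes A N')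
  haveI := isTorsionFree_chart_tower kA (FRes A N) (FRes A N')
  -- curves
  obtain ⟨g', hF', hFk'⟩ := hS2g
  obtain ⟨g, hF, -⟩ := Gin0.exists_isCurveOfGenus_FBar N
  have hFk : IsCurveOfGenus kA (FRes A N) (genusOf kA hxk) := isCurveOfGenus_genusOf kA hxk
  letI := hF.hasPrincipalDivisors
  letI := hFk.hasPrincipalDivisors
  -- the coordinate functions
  have hXL : RRgen.xF Qb (FBar N) = Gin0.jF N := algebraMap_ratFuncAlgebra_X Qb hxL
  have hXk : RRgen.xF kA (FRes A N) = Gink.jK A N := algebraMap_ratFuncAlgebra_X kA hxk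
  have hx : (V.datum N A hℓN hA h).redF (RRgen.xF Qb (FBar N)) = RRgen.xF kA (FRes A N) := by
    rw [hXL, hXk]
    exact G.datum_redF_jF N A hℓN hA h
  unfold G.WildInput
  intro Q hQ
  obtain ⟨Q0, rfl, hQ0⟩ := G.exists_placeFin_of_ord_pos kA (FRes A N) (BFin kA (FRes A N)) 0 Q
    (by rw [algebraMap_ratFuncAlgebra_X kA hxk, map_zero, sub_zero]; exact hQ)
  rw [G.diffOf_placeFin kA hxk Q0]
  refine Norm.mapDomain_le_count_of_tower (BFin Qb (FBar N)) (BFin kA (FRes A N))
    (BFin kA (FRes A N')) (V.datum N A hℓN hA h) (V.gaussDatum N' A hℓN' hA)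
    ?hO ?hred ?hdeg' ?hbase ?hdeg ?hpole hx 0 ?hS2 ?hTable ?hres (G.diffOf Qb hxL)
    (G.diffOf_placeFin Qb hxL) Q0 hQ0
  case hO => exact V.level_hO A hNN' hℓN' hA h
  case hred => exact fun x _ => V.level_hred A hNN' hℓN' hA h x
  case hdeg' => exact V.level_hdeg' A hNN' hℓN' hA
  case hbase =>
    refine Norm.exists_ratFunc_of_frame (V.datum N A hℓN hA h).toGaussDatum
      (θ := fun i => V.elemL (V.frameTheta N ℓ A hℓN i)) ?_ hx
    rw [hXL]
    exact V.gaussDatum_isFrameFamily_jF N A hℓN hA
  case hdeg =>
    rw [finrank_ratFunc Qb hxL, finrank_ratFunc kA hxk, Gin0.finrank_jF,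
      Gink.finrank_jK A N hA hℓN]
  case hpole =>
    intro P hP
    have hdegpos : ∀ Q : Place kA (FRes A N), 0 < Q.deg := fun Q => by
      rw [hFk.deg_eq_one]; exact one_pos
    have hne : (V.datum N A hℓN hA h).redF (Gin0.jF N) ≠ 0 := by
      rw [G.datum_redF_jF N A hℓN hA h]
      intro h0
      exact hxk (h0 ▸ isAlgebraic_zero)
    have := (V.datum N A hℓN hA h).ord_r_neg_of_ord_neg hdegpos hne
      (V.degree_polesOf_jF_eq N A hℓN hA) (P := P) (by rw [← hXL]; exact hP)
    rw [G.datum_redF_jF N A hℓN hA h, ← hXk] at this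
    exact this
  case hS2 =>
    intro b'
    exact V.hS2_level N' A hℓN' hA hF' hFk' (by rw [algebraMap_polyAlgebra, aeval_X])
      (by rw [algebraMap_polyAlgebra, aeval_X]) b'
  case hTable => exact hTable
  case hres => exact fun Q hQ => algebraMap_quotient_surjective Q hQ

end Fermat.Agent.S18lib.Mod23
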