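/-
S18lib / Mod23 / PlaceDict  (helper1): dictionary between the primes of the finite chart `B`
(RRgen variable block) and the places of `F / K`:
`b ∈ P ^ n ↔ n ≤ ord_{placeFin P} b`, `b ∈ P \ P² ↔ ord = 1`, and every place at which the
coordinate `x` is regular is `placeFin P` for a unique `P`.
-/
import Mathlib
import Fermat.Agent.S18lib.RRgen.Places
import Fermat.Agent.ProgramR.Alg.OrdVal

set_option autoImplicit false
set_option linter.unusedSectionVars false
set_option linter.style.haveILetI false

noncomputable section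

namespace Fermat.Agent.S18lib.Mod23

open Polynomial IsDedekindDomain AlgebraicCurve
open Fermat.Agent.ProgramR Fermat.Agent.ProgramR.Alg

variable (K : Type*) [Field K]
  (F : Type*) [Field F] [Algebra (RatFunc K) F] [Algebra K F] [IsScalarTower K (RatFunc K) F]
  (B : Type*) [CommRing B] [IsDedekindDomain B] [Algebra K[X] B] [Module.Finite K[X] B]
  [Algebra B F] [IsFractionRing B F] [Algebra K[X] F]
  [IsScalarTower K[X] (RatFunc K) F] [IsScalarTower K[X] B F]
  [Algebra K B] [IsScalarTower K B F]

theorem ord_placeFin_eq_ordV (P : HeightOneSpectrum B) (f : F) :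
    (RRgen.placeFin K F B P).ord f = ordV P f :=
  RRgen.ord_placeFin K F B P f

/-- **dictionary**: `b ∈ P ^ n ↔ n ≤ ord_P b`. -/
theorem mem_pow_iff_le_ord (P : HeightOneSpectrum B) {b : B} (hb : b ≠ 0) (n : ℕ) :
    b ∈ P.asIdeal ^ n ↔ (n : ℤ) ≤ (RRgen.placeFin K F B P).ord (algebraMap B F b) := by
  rw [ord_placeFin_eq_ordV, le_ordV_algebraMap_iff (L := F) P hb n]

theorem mem_iff_ord_pos (P : HeightOneSpectrum B) {b : B} (hb : b ≠ 0) :
    b ∈ P.asIdeal ↔ 0 < (RRgen.placeFin K F B P).ord (algebraMap B F b) := by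
  have h := mem_pow_iff_le_ord K F B P hb 1
  rw [pow_one] at h
  rw [h]
  norm_num
  omega

theorem ord_nonneg (P : HeightOneSpectrum B) {b : B} (hb : b ≠ 0) :
    0 ≤ (RRgen.placeFin K F B P).ord (algebraMap B F b) := by
  have h := (mem_pow_iff_le_ord K F B P hb 0).mp (by simp)
  exact_mod_cast h

/-- `b` is a uniformizer at `P` iff its order at the place of `P` is one. -/
theorem mem_and_not_mem_sq_iff_ord_eq_one (P : HeightOneSpectrum B) {b : B} (hb : b ≠ 0) :
    (b ∈ P.asIdeal ∧ b ∉ P.asIdeal ^ 2) ↔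
      (RRgen.placeFin K F B P).ord (algebraMap B F b) = 1 := by
  rw [mem_iff_ord_pos K F B P hb, mem_pow_iff_le_ord K F B P hb 2]
  push_cast
  omega

/-- the order at `placeFin P` as a multiplicity. -/
theorem ord_eq_multiplicity (P : HeightOneSpectrum B) {b : B} (hb : b ≠ 0) :
    (RRgen.placeFin K F B P).ord (algebraMap B F b) =
      (multiplicity P.asIdeal (Ideal.span {b}) : ℤ) := by
  have hne : Ideal.span {b} ≠ ⊥ := by rwa [Ne, Ideal.span_singleton_eq_bot]
  have hfin : FiniteMultiplicity P.asIdeal (Ideal.span {b}) :=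
    FiniteMultiplicity.of_prime_left P.prime hne
  have key : ∀ n : ℕ, (n : ℤ) ≤ (RRgen.placeFin K F B P).ord (algebraMap B F b) ↔
      n ≤ multiplicity P.asIdeal (Ideal.span {b}) := by
    intro n
    rw [← mem_pow_iff_le_ord K F B P hb n, ← hfin.pow_dvd_iff_le_multiplicity, Ideal.dvd_iff_le,
      Ideal.span_singleton_le_iff_mem]
  have h0 := ord_nonneg K F B P hb
  obtain ⟨m, hm⟩ := Int.eq_ofNat_of_zero_le h0
  rw [hm]
  have h1 := (key m).mp (by rw [hm])
  have h2 := (key (multiplicity P.asIdeal (Ideal.span {b}))).mpr le_rfl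
  rw [hm] at h2
  have h3 : multiplicity P.asIdeal (Ideal.span {b}) ≤ m := by exact_mod_cast h2
  exact_mod_cast le_antisymm h1 h3

/-- every place at which `x` is regular comes from a unique prime of the finite chart. -/
theorem exists_unique_placeFin_eq (v : Place K F) (hx : RRgen.xF K F ∈ v.toValuationSubring) :
    ∃! P : HeightOneSpectrum B, RRgen.placeFin K F B P = v := by
  have hmem : v ∈ Set.range (RRgen.placeFin K F B) := by
    rw [RRgen.range_placeFin]
    exact hx
  obtain ⟨P, hP⟩ := hmem
  exact ⟨P, hP, fun Q hQ => RRgen.placeFin_injective K F B (hQ.trans hP.symm)⟩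

end Fermat.Agent.S18lib.Mod23
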