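/-
S18lib / Mod23 / TableFields  (helper1): (Table') at function-field level.

`K` algebraically closed of characteristic `3` (resp. `2`), function fields `F, F₁ ⊆ F'` (finite
separable over `K(x)`), `hh ∈ F₁`, `mm ∈ F'` integral over `K[x]` with
  `x * hh² = (hh + 1)³`,  `(hh + 1)(mm + 1) = (mm - 1)²`          (characteristic `3`)
  `x * hh³ = (hh + 1)⁴`,  `(hh + 1)(mm² + mm + 1) = (mm + 1)³`    (characteristic `2`)
`hh` primitive for `F₁ / K(x)`, and `mm - 1` (resp. `mm + 1`) having only simple zeros (Place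
form of (S1)).  Then `hTable` of `Norm.exists_smul_lifts` holds at `c = 0` for the finite charts
`BFin K F ⊆ BFin K F'`.
-/
import Mathlib
import Fermat.Agent.S18lib.Mod23.Charts
import Fermat.Agent.S18lib.Mod23.PlaceDict
import Fermat.Agent.S18lib.RH.TableInput

set_option autoImplicit false
set_option linter.unusedSectionVars false
set_option linter.style.haveILetI false

noncomputable section

namespace Fermat.Agent.S18lib.Mod23

open Module Polynomial nonZeroDivisors IsDedekindDomain AlgebraicCurve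
open Fermat.Agent.S18lib.RRgen.Canonical

attribute [local instance] FractionRing.liftAlgebra FractionRing.isScalarTower_liftAlgebra
  Ideal.Quotient.field

variable (K : Type*) [Field K] [IsAlgClosed K]
  (F F₁ F' : Type*) [Field F] [Field F₁] [Field F']
  [Algebra K[X] F] [Algebra K[X] F₁] [Algebra K[X] F']
  [Algebra (RatFunc K) F] [Algebra (RatFunc K) F₁] [Algebra (RatFunc K) F']
  [IsScalarTower K[X] (RatFunc K) F] [IsScalarTower K[X] (RatFunc K) F₁]
  [IsScalarTower K[X] (RatFunc K) F']
  [Algebra F F'] [IsScalarTower (RatFunc K) F F'] [IsScalarTower K[X] F F']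
  [Algebra F₁ F'] [IsScalarTower (RatFunc K) F₁ F'] [IsScalarTower K[X] F₁ F']
  [FiniteDimensional (RatFunc K) F] [Algebra.IsSeparable (RatFunc K) F]
  [FiniteDimensional (RatFunc K) F₁] [Algebra.IsSeparable (RatFunc K) F₁]
  [FiniteDimensional (RatFunc K) F'] [Algebra.IsSeparable (RatFunc K) F']
  [Algebra K F'] [IsScalarTower K (RatFunc K) F']

attribute [local instance] isDedekindDomain_chart finite_chart isTorsionFree_chart
  isFractionRing_chart towerAlgebra finite_chart_tower isTorsionFree_chart_tower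
  isScalarTower_const_poly isScalarTower_const_BFin

/-- the common set-up: a prime `Q''` of the chart of `F'` over a prime `Q ∋ X` of the chart of
`F`, with everything `RH/TableInput` needs. -/
theorem exists_prime_over (Q : Ideal (integralClosure K[X] F)) (hQ : Q.IsPrime)
    (hQ0 : algebraMap K[X] (integralClosure K[X] F) (X - C 0) ∈ Q) :
    ∃ Q'' : Ideal (integralClosure K[X] F'), Q''.IsPrime ∧
      Q''.under (integralClosure K[X] F) = Q ∧
      algebraMap K[X] (integralClosure K[X] F') (X - C 0) ∈ Q'' ∧ Q'' ≠ ⊥ := by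
  haveI := hQ
  haveI := isIntegral_tower K[X] F F'
  obtain ⟨Q'', -, hQ''prime, hQ''over⟩ := Ideal.exists_ideal_over_prime_of_isIntegral Q
    (⊥ : Ideal (integralClosure K[X] F')) (by
      rw [Ideal.comap_bot_of_injective _ (algebraMap_tower_injective K[X] F F')]
      exact bot_le)
  have hc'' : algebraMap K[X] (integralClosure K[X] F') (X - C 0) ∈ Q'' := by
    rw [IsScalarTower.algebraMap_apply K[X] (integralClosure K[X] F) (integralClosure K[X] F'),
      ← Ideal.mem_comap, hQ''over]
    exact hQ0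
  refine ⟨Q'', hQ''prime, hQ''over, hc'', ?_⟩
  rintro rfl
  have h0 : algebraMap K[X] (integralClosure K[X] F') (X - C 0) = 0 := hc''
  have hinj : Function.Injective (algebraMap K[X] (integralClosure K[X] F')) :=
    FaithfulSMul.algebraMap_injective _ _
  have := (map_eq_zero_iff _ hinj).mp h0
  exact X_sub_C_ne_zero (0 : K) this

/-- **`hTable` at `c = 0`, characteristic `3`.** -/
theorem hTable_three [CharP K 3] (hh : F₁) (mm : F')
    (hhint : IsIntegral K[X] hh) (hmmint : IsIntegral K[X] mm)
    (hR1 : algebraMap K[X] F₁ X * hh ^ 2 = (hh + 1) ^ 3)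
    (hR2 : (algebraMap F₁ F' hh + 1) * (mm + 1) = (mm - 1) ^ 2)
    (hS1 : ∀ v : Place K F', 0 < v.ord (mm - 1) → v.ord (mm - 1) = 1)
    (hprim : Algebra.adjoin (RatFunc K) {hh} = ⊤)
    (Q : Ideal (integralClosure K[X] F)) (hQ : Q.IsPrime)
    (hQ0 : algebraMap K[X] (integralClosure K[X] F) (X - C 0) ∈ Q) :
    ∃ (Q'' : Ideal (integralClosure K[X] F')) (m : ℕ),
      Q'' ^ m ∣ (Q ^ 2).map (algebraMap (integralClosure K[X] F) (integralClosure K[X] F')) ∧
      ¬ Q'' ^ m ∣ differentIdeal (integralClosure K[X] F) (integralClosure K[X] F') := by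
  haveI := isSeparable_chart K F
  haveI := isSeparable_chart K F₁
  haveI := isSeparable_chart K F'
  haveI := isSeparable_chart_tower K F F'
  haveI := isSeparable_chart_tower K F₁ F'
  haveI := hQ
  obtain ⟨Q'', hQ''prime, hQ''over, hc'', hQ''0⟩ := exists_prime_over K F F' Q hQ hQ0
  haveI := hQ''prime
  haveI hpmax := RHCount.span_X_sub_C_isMaximal' (K := K) 0
  have hp0 := RHCount.span_X_sub_C_ne_bot (K := K) 0
  haveI : Q''.IsMaximal := Ideal.IsPrime.isMaximal inferInstance hQ''0
  -- lying-over instances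
  have hunder : Q''.under K[X] = Ideal.span {(X - C 0 : K[X])} := by
    have hle : Ideal.span {(X - C 0 : K[X])} ≤ Q''.under K[X] := by
      rw [Ideal.span_le, Set.singleton_subset_iff]
      exact hc''
    have hne : Q''.under K[X] ≠ ⊤ := (Ideal.comap_isPrime _ Q'').ne_top
    exact (hpmax.eq_of_le hne hle).symm
  haveI : Q''.LiesOver Q := ⟨hQ''over.symm⟩
  haveI : Q.LiesOver (Ideal.span {(X - C 0 : K[X])}) :=
    ⟨by rw [← hQ''over, Ideal.under_under, hunder]⟩
  -- the elements
  set hh' : integralClosure K[X] F₁ := ⟨hh, hhint⟩ with hhh'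
  set mm' : integralClosure K[X] F' := ⟨mm, hmmint⟩ with hmm'
  have h3 : ((3 : ℕ) : K[X]) = 0 := by
    haveI : CharP K[X] 3 := inferInstance
    exact CharP.cast_eq_zero K[X] 3
  have h3F : (3 : F') = 0 := by
    have := congrArg (algebraMap K[X] F') h3
    rw [map_natCast, map_zero] at this
    exact_mod_cast this
  have hX : (X - C 0 : K[X]) = X := by rw [map_zero, sub_zero]
  have hR1' : algebraMap K[X] (integralClosure K[X] F₁) (X - C 0) * hh' ^ 2 = (hh' + 1) ^ 3 := by
    apply Subtype.ext
    rw [hX]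
    exact hR1
  have hR2' : (algebraMap (integralClosure K[X] F₁) (integralClosure K[X] F') hh' + 1) *
      (mm' + 1) = (mm' - 1) ^ 2 := by
    apply Subtype.ext
    exact hR2
  -- `hh + 1 ∈ Q'' ∩ B₁`
  have hπ₁ : algebraMap K[X] (integralClosure K[X] F₁) (X - C 0) ∈
      Q''.under (integralClosure K[X] F₁) := by
    rw [Ideal.under_def, Ideal.mem_comap,
      ← IsScalarTower.algebraMap_apply K[X] (integralClosure K[X] F₁) (integralClosure K[X] F')]
    exact hc''
  have hh1 : hh' + 1 ∈ Q''.under (integralClosure K[X] F₁) := by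
    have h1 : (hh' + 1) ^ 3 ∈ Q''.under (integralClosure K[X] F₁) := by
      rw [← hR1']
      exact Ideal.mul_mem_right _ _ hπ₁
    exact (Ideal.IsPrime.under (integralClosure K[X] F₁) Q'').mem_of_pow_mem 3 h1
  have hS1mem : mm' - 1 ∈ Q'' := by
    have h1 : (mm' - 1) ^ 2 ∈ Q'' := by
      rw [← hR2']
      refine Ideal.mul_mem_right _ _ ?_
      have := hh1
      rw [Ideal.under_def, Ideal.mem_comap, map_add, map_one] at this
      exact this
    exact hQ''prime.mem_of_pow_mem 2 h1
  -- `mm - 1 ≠ 0`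
  have hinjX : Function.Injective (algebraMap K[X] F₁) := by
    rw [IsScalarTower.algebraMap_eq K[X] (RatFunc K) F₁]
    exact (algebraMap (RatFunc K) F₁).injective.comp (RatFunc.algebraMap_injective K)
  have hmm0 : mm' - 1 ≠ 0 := by
    intro h0
    have h0' : mm - 1 = 0 := congrArg Subtype.val h0
    have hmm1 : mm = 1 := sub_eq_zero.mp h0'
    have h2 : (algebraMap F₁ F' hh + 1) * (1 + 1) = 0 := by
      have := hR2
      rw [hmm1, sub_self] at this
      simpa using this
    have h2ne : (1 + 1 : F') ≠ 0 := by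
      intro h
      have h4 : (1 : F') = 0 := by
        have e : (1 : F') = 3 - (1 + 1) := by ring
        rw [e, h3F, h, sub_zero]
      exact one_ne_zero h4
    have h3' : algebraMap F₁ F' hh + 1 = 0 := (mul_eq_zero.mp h2).resolve_right h2ne
    have h4 : hh + 1 = 0 := by
      apply (algebraMap F₁ F').injective
      rw [map_add, map_one, map_zero, h3']
    have h5 : hh = -1 := eq_neg_of_add_eq_zero_left h4
    have h6 : algebraMap K[X] F₁ X = 0 := by
      have := hR1
      rw [h4, h5] at this
      simpa using this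
    exact X_ne_zero ((map_eq_zero_iff _ hinjX).mp h6)
  -- `(S1)`: `mm - 1 ∉ Q'' ^ 2`
  have hS1not : mm' - 1 ∉ Q'' ^ 2 := by
    set P : HeightOneSpectrum (integralClosure K[X] F') := ⟨Q'', hQ''prime, hQ''0⟩ with hP
    have hcoe : algebraMap (integralClosure K[X] F') F' (mm' - 1) = mm - 1 := rfl
    have hpos : 0 < (RRgen.placeFin K F' (integralClosure K[X] F') P).ord (mm - 1) := by
      rw [← hcoe, ← mem_iff_ord_pos K F' (integralClosure K[X] F') P hmm0]
      exact hS1mem
    have hone := hS1 _ hpos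
    rw [← hcoe] at hone
    exact ((mem_and_not_mem_sq_iff_ord_eq_one K F' (integralClosure K[X] F') P hmm0).mpr hone).2
  have hprim' : Algebra.adjoin (RatFunc K)
      {algebraMap (integralClosure K[X] F₁) F₁ hh'} = ⊤ := hprim
  obtain ⟨m, hm1, hm2⟩ := RH.exists_pow_dvd_sq_of_relations_three K[X] (integralClosure K[X] F)
    (integralClosure K[X] F₁) (integralClosure K[X] F') (RatFunc K) F₁
    (Ideal.span {(X - C 0 : K[X])}) Q Q'' hp0
    (fun b => exists_poly_sub_mem (K := K) Q'' b)
    (natCast_quotient_eq_zero_iff 3 _ hpmax.ne_top) h3 (X - C 0) rfl hh' mm' hR1' hR2'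
    hS1mem hS1not hprim'
  exact ⟨Q'', m, hm1, hm2⟩

/-- **`hTable` at `c = 0`, characteristic `2`.** -/
theorem hTable_two [CharP K 2] (hh : F₁) (mm : F')
    (hhint : IsIntegral K[X] hh) (hmmint : IsIntegral K[X] mm)
    (hR1 : algebraMap K[X] F₁ X * hh ^ 3 = (hh + 1) ^ 4)
    (hR2 : (algebraMap F₁ F' hh + 1) * (mm ^ 2 + mm + 1) = (mm + 1) ^ 3)
    (hS1 : ∀ v : Place K F', 0 < v.ord (mm + 1) → v.ord (mm + 1) = 1)
    (hprim : Algebra.adjoin (RatFunc K) {hh} = ⊤)
    (Q : Ideal (integralClosure K[X] F)) (hQ : Q.IsPrime)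
    (hQ0 : algebraMap K[X] (integralClosure K[X] F) (X - C 0) ∈ Q) :
    ∃ (Q'' : Ideal (integralClosure K[X] F')) (m : ℕ),
      Q'' ^ m ∣ (Q ^ 2).map (algebraMap (integralClosure K[X] F) (integralClosure K[X] F')) ∧
      ¬ Q'' ^ m ∣ differentIdeal (integralClosure K[X] F) (integralClosure K[X] F') := by
  haveI := isSeparable_chart K F
  haveI := isSeparable_chart K F₁
  haveI := isSeparable_chart K F'
  haveI := isSeparable_chart_tower K F F'
  haveI := isSeparable_chart_tower K F₁ F'
  haveI := hQ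
  obtain ⟨Q'', hQ''prime, hQ''over, hc'', hQ''0⟩ := exists_prime_over K F F' Q hQ hQ0
  haveI := hQ''prime
  haveI hpmax := RHCount.span_X_sub_C_isMaximal' (K := K) 0
  have hp0 := RHCount.span_X_sub_C_ne_bot (K := K) 0
  haveI : Q''.IsMaximal := Ideal.IsPrime.isMaximal inferInstance hQ''0
  have hunder : Q''.under K[X] = Ideal.span {(X - C 0 : K[X])} := by
    have hle : Ideal.span {(X - C 0 : K[X])} ≤ Q''.under K[X] := by
      rw [Ideal.span_le, Set.singleton_subset_iff]
      exact hc''
    have hne : Q''.under K[X] ≠ ⊤ := (Ideal.comap_isPrime _ Q'').ne_top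
    exact (hpmax.eq_of_le hne hle).symm
  haveI : Q''.LiesOver Q := ⟨hQ''over.symm⟩
  haveI : Q.LiesOver (Ideal.span {(X - C 0 : K[X])}) :=
    ⟨by rw [← hQ''over, Ideal.under_under, hunder]⟩
  set hh' : integralClosure K[X] F₁ := ⟨hh, hhint⟩ with hhh'
  set mm' : integralClosure K[X] F' := ⟨mm, hmmint⟩ with hmm'
  have h2 : ((2 : ℕ) : K[X]) = 0 := by
    haveI : CharP K[X] 2 := inferInstance
    exact CharP.cast_eq_zero K[X] 2
  have h4 : ((4 : ℕ) : K[X]) = 0 := by
    have e : ((4 : ℕ) : K[X]) = ((2 : ℕ) : K[X]) * ((2 : ℕ) : K[X]) := by norm_num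
    rw [e, h2, zero_mul]
  have h2F : (2 : F') = 0 := by
    have := congrArg (algebraMap K[X] F') h2
    rw [map_natCast, map_zero] at this
    exact_mod_cast this
  have hX : (X - C 0 : K[X]) = X := by rw [map_zero, sub_zero]
  have hR1' : algebraMap K[X] (integralClosure K[X] F₁) (X - C 0) * hh' ^ 3 = (hh' + 1) ^ 4 := by
    apply Subtype.ext
    rw [hX]
    exact hR1
  have hR2' : (algebraMap (integralClosure K[X] F₁) (integralClosure K[X] F') hh' + 1) *
      (mm' ^ 2 + mm' + 1) = (mm' + 1) ^ 3 := by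
    apply Subtype.ext
    exact hR2
  have hπ₁ : algebraMap K[X] (integralClosure K[X] F₁) (X - C 0) ∈
      Q''.under (integralClosure K[X] F₁) := by
    rw [Ideal.under_def, Ideal.mem_comap,
      ← IsScalarTower.algebraMap_apply K[X] (integralClosure K[X] F₁) (integralClosure K[X] F')]
    exact hc''
  have hh1 : hh' + 1 ∈ Q''.under (integralClosure K[X] F₁) := by
    have h1 : (hh' + 1) ^ 4 ∈ Q''.under (integralClosure K[X] F₁) := by
      rw [← hR1']
      exact Ideal.mul_mem_right _ _ hπ₁
    exact (Ideal.IsPrime.under (integralClosure K[X] F₁) Q'').mem_of_pow_mem 4 h1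
  have hS1mem : mm' + 1 ∈ Q'' := by
    have h1 : (mm' + 1) ^ 3 ∈ Q'' := by
      rw [← hR2']
      refine Ideal.mul_mem_right _ _ ?_
      have := hh1
      rw [Ideal.under_def, Ideal.mem_comap, map_add, map_one] at this
      exact this
    exact hQ''prime.mem_of_pow_mem 3 h1
  have hinjX : Function.Injective (algebraMap K[X] F₁) := by
    rw [IsScalarTower.algebraMap_eq K[X] (RatFunc K) F₁]
    exact (algebraMap (RatFunc K) F₁).injective.comp (RatFunc.algebraMap_injective K)
  have hmm0 : mm' + 1 ≠ 0 := by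
    intro h0
    have h0' : mm + 1 = 0 := congrArg Subtype.val h0
    have hmm1 : mm = -1 := eq_neg_of_add_eq_zero_left h0'
    have h2' : algebraMap F₁ F' hh + 1 = 0 := by
      have := hR2
      rw [h0', hmm1] at this
      simpa using this
    have h4' : hh + 1 = 0 := by
      apply (algebraMap F₁ F').injective
      rw [map_add, map_one, map_zero, h2']
    have h5 : hh = -1 := eq_neg_of_add_eq_zero_left h4'
    have h6 : algebraMap K[X] F₁ X = 0 := by
      have := hR1
      rw [h4', h5] at this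
      simpa using this
    exact X_ne_zero ((map_eq_zero_iff _ hinjX).mp h6)
  have hS1not : mm' + 1 ∉ Q'' ^ 2 := by
    set P : HeightOneSpectrum (integralClosure K[X] F') := ⟨Q'', hQ''prime, hQ''0⟩ with hP
    have hcoe : algebraMap (integralClosure K[X] F') F' (mm' + 1) = mm + 1 := rfl
    have hpos : 0 < (RRgen.placeFin K F' (integralClosure K[X] F') P).ord (mm + 1) := by
      rw [← hcoe, ← mem_iff_ord_pos K F' (integralClosure K[X] F') P hmm0]
      exact hS1mem
    have hone := hS1 _ hpos
    rw [← hcoe] at hone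
    exact ((mem_and_not_mem_sq_iff_ord_eq_one K F' (integralClosure K[X] F') P hmm0).mpr hone).2
  have hprim' : Algebra.adjoin (RatFunc K)
      {algebraMap (integralClosure K[X] F₁) F₁ hh'} = ⊤ := hprim
  obtain ⟨m, hm1, hm2⟩ := RH.exists_pow_dvd_sq_of_relations_two K[X] (integralClosure K[X] F)
    (integralClosure K[X] F₁) (integralClosure K[X] F') (RatFunc K) F₁
    (Ideal.span {(X - C 0 : K[X])}) Q Q'' hp0
    (fun b => exists_poly_sub_mem (K := K) Q'' b)
    (natCast_quotient_eq_zero_iff 2 _ hpmax.ne_top) h4 (X - C 0) rfl hh' mm' hR1' hR2'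
    hS1mem hS1not hprim'
  exact ⟨Q'', m, hm1, hm2⟩

end Fermat.Agent.S18lib.Mod23
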