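/-
S18lib / Mod23 / WildInput  (helper9)

**`Mod23.wildInput`** : `G.WildInput N A hℓN hA h` for `ℓ = 2, 3` = the last input of S18
(helper5's `G.exists_genus_of_forall_wildInput`).

`wildInput_of_tower` (`Mod23/NormZeroInst.lean`) at the auxiliary level `N' = 4N` (`ℓ = 3`) resp.
`N' = 9N` (`ℓ = 2`):
* (S2) at `N'` : `Mod23.exists_genus_four / exists_genus_nine` (`Mod23/MuLineMain.lean`);
* `hTable`     : helper1's `Mod23.hTable_three / hTable_two` (`Mod23/TableFields.lean`) at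
  `F = FRes A N`, `F₁ = FRes A 2` resp. `FRes A 3`, `F' = FRes A N'`, `hh = h̄₂` resp. `h̄₃`,
  `mm = μ̄₄` resp. `μ̄₉` (lead's `Haupt/Residue.lean` relations mod `3` / mod `2`, integrality,
  `Haupt/BarEq.lean` primitivity), (S1) = `Mod23.ord_mu4K_sub_one` / `ord_mu9K_add_one`,
  level inclusions = helper6's `V/GaussU/LevelAlg.lean`.
-/
import Mathlib
import Fermat.Agent.S18lib.Mod23.NormZeroInst
import Fermat.Agent.S18lib.Mod23.TableFields
import Fermat.Agent.S18lib.Mod23.MuLineMain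
import Fermat.Agent.S18lib.Haupt.BarEq

set_option autoImplicit false
set_option linter.style.haveILetI false
set_option linter.unusedSectionVars false

noncomputable section

namespace Fermat.Agent.S18lib.Mod23

open AlgebraicCurve ModularCurve IntermediateField Polynomial Module IsDedekindDomain
  UniqueFactorizationMonoid
open Fermat.Agent.ProgramR Fermat.Agent.S18lib.RRgen.Canonical

attribute [local instance] FractionRing.liftAlgebra FractionRing.isScalarTower_liftAlgebra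

/-- a primitive element over `K` is a primitive element over `K(x)` (as an algebra generator). -/
theorem adjoin_ratFunc_eq_top_of_field_adjoin_eq_top (K : Type*) [Field K] {F : Type*} [Field F]
    [Algebra K F] [Algebra (RatFunc K) F] [IsScalarTower K (RatFunc K) F]
    [Algebra.IsAlgebraic (RatFunc K) F]
    (y : F) (h : (K⟮y⟯ : IntermediateField K F) = ⊤) : Algebra.adjoin (RatFunc K) {y} = ⊤ := by
  set S := Algebra.adjoin (RatFunc K) {y} with hS
  let T : IntermediateField K F := Subalgebra.toIntermediateField (S.restrictScalars K)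
    (fun x hx => by
      have hx' : x ∈ S := hx
      have := S.inv_mem_of_algebraic (x := ⟨x, hx'⟩) (Algebra.IsAlgebraic.isAlgebraic x)
      exact this)
  have hy : y ∈ T := Algebra.subset_adjoin (Set.mem_singleton y)
  have hle : K⟮y⟯ ≤ T := by
    rw [IntermediateField.adjoin_le_iff, Set.singleton_subset_iff]
    exact hy
  rw [eq_top_iff]
  intro z _
  have hz : z ∈ K⟮y⟯ := by rw [h]; exact IntermediateField.mem_top
  exact hle hz

variable {N N' : ℕ} [NeZero N] [NeZero N'] {ℓ : ℕ} [Fact ℓ.Prime]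
variable (A : ValuationSubring (AlgebraicClosure ℚ))

local notation "Qb" => AlgebraicClosure ℚ
local notation "kA" => IsLocalRing.ResidueField A

set_option maxHeartbeats 1000000 in
/-- **`Mod23.wildInput`, `ℓ = 3`**, through any level `N'` with `N ∣ N'`, `4 ∣ N'`, `3 ∤ N'`. -/
theorem wildInput_three_of_level (hℓ : ℓ = 3) (hNN' : N ∣ N') (h4 : 4 ∣ N') (hℓN' : ¬ ℓ ∣ N')
    (hA : A.LiesOverPrime ℓ) (h : ReductionInputsModL A N) :
    G.WildInput N A (V.not_dvd_of_level_dvd hNN' hℓN') hA h := by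
  refine wildInput_of_tower A hNN' hℓN' hA h (exists_genus_four N' A hℓ hℓN' hA h4) ?_
  have h2N' : 2 ∣ N' := Dvd.dvd.trans (by norm_num) h4
  have hℓN : ¬ ℓ ∣ N := V.not_dvd_of_level_dvd hNN' hℓN'
  have hℓ2 : ¬ ℓ ∣ 2 := V.not_dvd_of_level_dvd h2N' hℓN'
  haveI : Algebra.IsSeparable (kRes A)⟮Gink.jK A N⟯ (FRes A N) := Gink.isSeparable_jK A N hA hℓN
  haveI : Algebra.IsSeparable (kRes A)⟮Gink.jK A N'⟯ (FRes A N') :=
    Gink.isSeparable_jK A N' hA hℓN'
  haveI : Algebra.IsSeparable (kRes A)⟮Gink.jK A 2⟯ (FRes A 2) := Gink.isSeparable_jK A 2 hA hℓ2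
  haveI : IsAlgClosed kA := Gink.isAlgClosed_residueField A
  haveI : CharP kA 3 := hℓ ▸ Gink.charP_kRes A hA
  have hxk : Transcendental kA (Gink.jK A N) := Gink.transcendental_jK A N
  have hxk' : Transcendental kA (Gink.jK A N') := Gink.transcendental_jK A N'
  have hx2 : Transcendental kA (Gink.jK A 2) := Gink.transcendental_jK A 2
  -- level `N`
  letI := polyAlgebra kA (Gink.jK A N)
  letI := ratFuncAlgebra kA hxk
  haveI := isScalarTower_poly_ratFunc kA hxk
  haveI := isScalarTower_const_ratFunc kA hxk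
  haveI := finiteDimensional_ratFunc kA hxk
  haveI := isSeparable_ratFunc kA hxk
  -- level `2`
  letI := polyAlgebra kA (Gink.jK A 2)
  letI := ratFuncAlgebra kA hx2
  haveI := isScalarTower_poly_ratFunc kA hx2
  haveI := isScalarTower_const_ratFunc kA hx2
  haveI := finiteDimensional_ratFunc kA hx2
  haveI := isSeparable_ratFunc kA hx2
  -- level `N'`
  letI := polyAlgebra kA (Gink.jK A N')
  letI := ratFuncAlgebra kA hxk'
  haveI := isScalarTower_poly_ratFunc kA hxk'
  haveI := isScalarTower_const_ratFunc kA hxk'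
  haveI := finiteDimensional_ratFunc kA hxk'
  haveI := isSeparable_ratFunc kA hxk'
  -- the towers
  letI := V.levelAlgebraK (N := N) (N' := N') A hNN'
  letI := V.levelModuleK (N := N) (N' := N') A hNN'
  letI := V.levelAlgebraK (N := 2) (N' := N') A h2N'
  letI := V.levelModuleK (N := 2) (N' := N') A h2N'
  haveI : IsScalarTower kA (FRes A N) (FRes A N') := V.isScalarTower_levelK A hNN'
  haveI : IsScalarTower kA (FRes A 2) (FRes A N') := V.isScalarTower_levelK A h2N'
  have hjK : algebraMap (FRes A N) (FRes A N') (Gink.jK A N) = Gink.jK A N' :=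
    V.algebraMap_levelK_jK A hNN'
  have hj2 : algebraMap (FRes A 2) (FRes A N') (Gink.jK A 2) = Gink.jK A N' :=
    V.algebraMap_levelK_jK A h2N'
  haveI := isScalarTower_poly_tower kA hjK
  haveI := isScalarTower_poly_tower kA hj2
  haveI := isScalarTower_ratFunc_tower kA hxk hxk' hjK
  haveI := isScalarTower_ratFunc_tower kA hx2 hxk' hj2
  -- the elements
  set hh : FRes A 2 := Haupt.h2K 2 hA hℓ2 dvd_rfl with hhh
  set mm : FRes A N' := Haupt.mu4K N' hA hℓN' h4 with hmm
  have hhint : IsIntegral kA[X] hh :=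
    ⟨Haupt.polyH2 kA, Haupt.polyH2_monic kA, Haupt.eval₂_polyH2_h2K 2 hA hℓ2 dvd_rfl⟩
  have hmmint : IsIntegral kA[X] mm :=
    ⟨Haupt.polyMu4 kA, Haupt.polyMu4_monic kA, Haupt.eval₂_polyMu4_mu4K N' hA hℓN' h4⟩
  have hR1 : algebraMap kA[X] (FRes A 2) X * hh ^ 2 = (hh + 1) ^ 3 := by
    rw [algebraMap_polyAlgebra, aeval_X]
    exact Haupt.jK_mul_h2K_three 2 hA hℓ2 hℓ dvd_rfl
  have hR2 : (algebraMap (FRes A 2) (FRes A N') hh + 1) * (mm + 1) = (mm - 1) ^ 2 := by
    rw [hhh, V.algebraMap_levelK_h2K hA h2N' hℓ2 hℓN' dvd_rfl h2N']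
    exact Haupt.h2K_mul_mu4K_three N' hA hℓN' hℓ h4
  have hS1 : ∀ v : Place kA (FRes A N'), 0 < v.ord (mm - 1) → v.ord (mm - 1) = 1 :=
    fun v hv => ord_mu4K_sub_one N' A hℓ hℓN' hA h4 v hv
  have hprim : Algebra.adjoin (RatFunc kA) {hh} = ⊤ :=
    adjoin_ratFunc_eq_top_of_field_adjoin_eq_top kA hh (Haupt.adjoin_h2K_eq_top hA hℓ2)
  exact hTable_three kA (FRes A N) (FRes A 2) (FRes A N') hh mm hhint hmmint hR1 hR2 hS1 hprim

set_option maxHeartbeats 1000000 in
/-- **`Mod23.wildInput`, `ℓ = 2`**, through any level `N'` with `N ∣ N'`, `9 ∣ N'`, `2 ∤ N'`. -/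
theorem wildInput_two_of_level (hℓ : ℓ = 2) (hNN' : N ∣ N') (h9 : 9 ∣ N') (hℓN' : ¬ ℓ ∣ N')
    (hA : A.LiesOverPrime ℓ) (h : ReductionInputsModL A N) :
    G.WildInput N A (V.not_dvd_of_level_dvd hNN' hℓN') hA h := by
  refine wildInput_of_tower A hNN' hℓN' hA h (exists_genus_nine N' A hℓ hℓN' hA h9) ?_
  have h3N' : 3 ∣ N' := Dvd.dvd.trans (by norm_num) h9
  have hℓN : ¬ ℓ ∣ N := V.not_dvd_of_level_dvd hNN' hℓN'
  have hℓ3 : ¬ ℓ ∣ 3 := V.not_dvd_of_level_dvd h3N' hℓN'
  haveI : Algebra.IsSeparable (kRes A)⟮Gink.jK A N⟯ (FRes A N) := Gink.isSeparable_jK A N hA hℓN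
  haveI : Algebra.IsSeparable (kRes A)⟮Gink.jK A N'⟯ (FRes A N') :=
    Gink.isSeparable_jK A N' hA hℓN'
  haveI : Algebra.IsSeparable (kRes A)⟮Gink.jK A 3⟯ (FRes A 3) := Gink.isSeparable_jK A 3 hA hℓ3
  haveI : IsAlgClosed kA := Gink.isAlgClosed_residueField A
  haveI : CharP kA 2 := hℓ ▸ Gink.charP_kRes A hA
  have hxk : Transcendental kA (Gink.jK A N) := Gink.transcendental_jK A N
  have hxk' : Transcendental kA (Gink.jK A N') := Gink.transcendental_jK A N'
  have hx3 : Transcendental kA (Gink.jK A 3) := Gink.transcendental_jK A 3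
  -- level `N`
  letI := polyAlgebra kA (Gink.jK A N)
  letI := ratFuncAlgebra kA hxk
  haveI := isScalarTower_poly_ratFunc kA hxk
  haveI := isScalarTower_const_ratFunc kA hxk
  haveI := finiteDimensional_ratFunc kA hxk
  haveI := isSeparable_ratFunc kA hxk
  -- level `3`
  letI := polyAlgebra kA (Gink.jK A 3)
  letI := ratFuncAlgebra kA hx3
  haveI := isScalarTower_poly_ratFunc kA hx3
  haveI := isScalarTower_const_ratFunc kA hx3
  haveI := finiteDimensional_ratFunc kA hx3
  haveI := isSeparable_ratFunc kA hx3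
  -- level `N'`
  letI := polyAlgebra kA (Gink.jK A N')
  letI := ratFuncAlgebra kA hxk'
  haveI := isScalarTower_poly_ratFunc kA hxk'
  haveI := isScalarTower_const_ratFunc kA hxk'
  haveI := finiteDimensional_ratFunc kA hxk'
  haveI := isSeparable_ratFunc kA hxk'
  -- the towers
  letI := V.levelAlgebraK (N := N) (N' := N') A hNN'
  letI := V.levelModuleK (N := N) (N' := N') A hNN'
  letI := V.levelAlgebraK (N := 3) (N' := N') A h3N'
  letI := V.levelModuleK (N := 3) (N' := N') A h3N'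
  haveI : IsScalarTower kA (FRes A N) (FRes A N') := V.isScalarTower_levelK A hNN'
  haveI : IsScalarTower kA (FRes A 3) (FRes A N') := V.isScalarTower_levelK A h3N'
  have hjK : algebraMap (FRes A N) (FRes A N') (Gink.jK A N) = Gink.jK A N' :=
    V.algebraMap_levelK_jK A hNN'
  have hj3 : algebraMap (FRes A 3) (FRes A N') (Gink.jK A 3) = Gink.jK A N' :=
    V.algebraMap_levelK_jK A h3N'
  haveI := isScalarTower_poly_tower kA hjK
  haveI := isScalarTower_poly_tower kA hj3
  haveI := isScalarTower_ratFunc_tower kA hxk hxk' hjK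
  haveI := isScalarTower_ratFunc_tower kA hx3 hxk' hj3
  -- the elements
  set hh : FRes A 3 := Haupt.h3K 3 hA hℓ3 dvd_rfl with hhh
  set mm : FRes A N' := Haupt.mu9K N' hA hℓN' h9 with hmm
  have hhint : IsIntegral kA[X] hh :=
    ⟨Haupt.polyH3 kA, Haupt.polyH3_monic kA, Haupt.eval₂_polyH3_h3K 3 hA hℓ3 dvd_rfl⟩
  have hmmint : IsIntegral kA[X] mm :=
    ⟨Haupt.polyMu9 kA, Haupt.polyMu9_monic kA, Haupt.eval₂_polyMu9_mu9K N' hA hℓN' h9⟩
  have hR1 : algebraMap kA[X] (FRes A 3) X * hh ^ 3 = (hh + 1) ^ 4 := by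
    rw [algebraMap_polyAlgebra, aeval_X]
    exact Haupt.jK_mul_h3K_two 3 hA hℓ3 hℓ dvd_rfl
  have hR2 : (algebraMap (FRes A 3) (FRes A N') hh + 1) * (mm ^ 2 + mm + 1) = (mm + 1) ^ 3 := by
    rw [hhh, V.algebraMap_levelK_h3K hA h3N' hℓ3 hℓN' dvd_rfl h3N']
    exact Haupt.h3K_mul_mu9K_two N' hA hℓN' hℓ h9
  have hS1 : ∀ v : Place kA (FRes A N'), 0 < v.ord (mm + 1) → v.ord (mm + 1) = 1 :=
    fun v hv => ord_mu9K_add_one N' A hℓ hℓN' hA h9 v hv
  have hprim : Algebra.adjoin (RatFunc kA) {hh} = ⊤ :=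
    adjoin_ratFunc_eq_top_of_field_adjoin_eq_top kA hh (Haupt.adjoin_h3K_eq_top hA hℓ3)
  exact hTable_two kA (FRes A N) (FRes A 3) (FRes A N') hh mm hhint hmmint hR1 hR2 hS1 hprim

/-- **`Mod23.wildInput`**: conservation of the different at the places over `j̄ = 0`, for
`ℓ = 2, 3` (the only input of S18 besides the generic machinery). -/
theorem wildInput (N : ℕ) [NeZero N] {ℓ : ℕ} [Fact ℓ.Prime]
    (A : ValuationSubring (AlgebraicClosure ℚ)) (hℓN : ¬ ℓ ∣ N) (hA : A.LiesOverPrime ℓ)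
    (h : ReductionInputsModL A N) (hℓ : ℓ = 2 ∨ ℓ = 3) : G.WildInput N A hℓN hA h := by
  rcases hℓ with hℓ | hℓ
  · have hℓN' : ¬ ℓ ∣ 9 * N := by
      subst hℓ
      intro h2
      rcases (Nat.Prime.dvd_mul Nat.prime_two).mp h2 with h9 | hN
      · exact absurd h9 (by norm_num)
      · exact hℓN hN
    exact wildInput_two_of_level A hℓ (Dvd.intro_left 9 rfl) (Dvd.intro N rfl) hℓN' hA h
  · have hℓN' : ¬ ℓ ∣ 4 * N := by
      subst hℓ
      intro h3
      rcases (Nat.Prime.dvd_mul Nat.prime_three).mp h3 with h4 | hN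
      · exact absurd h4 (by norm_num)
      · exact hℓN hN
    exact wildInput_three_of_level A hℓ (Dvd.intro_left 4 rfl) (Dvd.intro N rfl) hℓN' hA h

end Fermat.Agent.S18lib.Mod23
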