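/-
S18lib / Mod23 / Primitive  (helper1): primitive elements along a rational relation.

`j : F` transcendental over `K`, `[F : K(j)] = max (deg Nn) (deg D)` and `j * D(h) = Nn(h)` with
`Nn, D` coprime: then `F = K(h)`, and `h` is a primitive element of `F` over `RatFunc K` (acting
through `X ↦ j`): `Algebra.adjoin (RatFunc K) {h} = ⊤` (= `hprim` of `Mod23.hTable_three/_two`).
-/
import Mathlib
import Fermat.Agent.S18lib.RRgen.Luroth

set_option autoImplicit false
set_option linter.unusedSectionVars false
set_option linter.style.haveILetI false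

noncomputable section

namespace Fermat.Agent.S18lib.Mod23

open Module Polynomial IntermediateField
open Fermat.Agent.S18lib.RRgen.Canonical Fermat.Agent.S18lib.RRgen

variable (K : Type*) [Field K] {F : Type*} [Field F] [Algebra K F] {j h : F}

/-- `F = K(h)` when `j = Nn(h)/D(h)` has degree `[F : K(j)]`. -/
theorem adjoin_eq_top_of_relation (hj : Transcendental K j) [FiniteDimensional K⟮j⟯ F]
    {Nn D : K[X]} (hD : D ≠ 0) (hcop : IsCoprime Nn D)
    (hrel : j * Polynomial.aeval h D = Polynomial.aeval h Nn)
    (hdeg : finrank K⟮j⟯ F = max Nn.natDegree D.natDegree) : K⟮h⟯ = ⊤ := by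
  have hh : Transcendental K h := Luroth.transcendental_gen_of_relation K hj hcop hrel
  have h1 := Luroth.finrank_adjoin_of_relation K hh hD hcop hrel
  have hpos : 0 < finrank K⟮j⟯ F := finrank_pos
  have h2 : finrank K⟮h⟯ F = 1 := by
    rw [hdeg] at h1 hpos
    have h3 : max Nn.natDegree D.natDegree * 1 = max Nn.natDegree D.natDegree * finrank K⟮h⟯ F := by
      rw [mul_one]
      exact h1
    exact (Nat.eq_of_mul_eq_mul_left hpos h3).symm
  exact IntermediateField.finrank_eq_one_iff_eq_top.mp h2

/-- **`hprim`**: `h` generates `F` as an algebra over `RatFunc K` (`X ↦ j`). -/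
theorem adjoin_ratFunc_eq_top_of_relation (hj : Transcendental K j) [FiniteDimensional K⟮j⟯ F]
    {Nn D : K[X]} (hD : D ≠ 0) (hcop : IsCoprime Nn D)
    (hrel : j * Polynomial.aeval h D = Polynomial.aeval h Nn)
    (hdeg : finrank K⟮j⟯ F = max Nn.natDegree D.natDegree) :
    letI := ratFuncAlgebra K hj
    Algebra.adjoin (RatFunc K) {h} = ⊤ := by
  letI := ratFuncAlgebra K hj
  haveI := isScalarTower_const_ratFunc K hj
  haveI : FiniteDimensional (RatFunc K) F := finiteDimensional_ratFunc K hj
  have htop := adjoin_eq_top_of_relation K hj hD hcop hrel hdeg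
  have halg : IsAlgebraic (RatFunc K) h := Algebra.IsAlgebraic.isAlgebraic h
  rw [← IntermediateField.adjoin_simple_eq_top_iff_of_isAlgebraic halg, eq_top_iff]
  intro y _
  have hy : y ∈ K⟮h⟯ := by rw [htop]; exact IntermediateField.mem_top
  have hle : K⟮h⟯ ≤ ((RatFunc K)⟮h⟯).restrictScalars K := by
    rw [IntermediateField.adjoin_le_iff, Set.singleton_subset_iff]
    exact IntermediateField.mem_adjoin_simple_self (RatFunc K) h
  exact hle hy

end Fermat.Agent.S18lib.Mod23
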