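/-
S18lib / Mod23 / PrimitiveMod  (helper1): `FRes A 2 = k(j̄)(h̄₂)` for `ℓ ≠ 2` and
`FRes A 3 = k(j̄)(h̄₃)` for `ℓ ≠ 3`, in the form `hprim` of `Mod23.hTable_three/_two`:
`Algebra.adjoin (RatFunc k) {h̄} = ⊤` for the `RatFunc k`-structure `X ↦ j̄`.
-/
import Mathlib
import Fermat.Agent.S18lib.Mod23.Primitive
import Fermat.Agent.S18lib.Haupt.Residue
import Fermat.Agent.S18lib.Gink.Degree
import Fermat.Agent.S18lib.Gink.Sep
import Fermat.Agent.ProgramR.Counting.Psi

set_option autoImplicit false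
set_option linter.unusedSectionVars false
set_option linter.style.haveILetI false

noncomputable section

namespace Fermat.Agent.S18lib.Mod23

open Module Polynomial IntermediateField ModularCurve
open Fermat.Agent.S18lib.RRgen.Canonical Fermat.Agent.S18lib.RRgen

theorem dedekindPsi_two' : dedekindPsi 2 = 3 := by
  have h := Fermat.Agent.ProgramR.dedekindPsi_mul_prime_of_not_dvd (M := 1) (p := 2) one_ne_zero
    Nat.prime_two (by norm_num)
  simpa using h

theorem dedekindPsi_three' : dedekindPsi 3 = 4 := by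
  have h := Fermat.Agent.ProgramR.dedekindPsi_mul_prime_of_not_dvd (M := 1) (p := 3) one_ne_zero
    Nat.prime_three (by norm_num)
  simpa using h

section Coprime

variable (K : Type*) [Field K]

theorem isCoprime_X_add_C_X {c : K} (hc : c ≠ 0) : IsCoprime (X + C c : K[X]) X :=
  ⟨C c⁻¹, -C c⁻¹, by
    have : C c⁻¹ * (X + C c) + -C c⁻¹ * X = C (c⁻¹ * c) := by
      rw [C_mul]; ring
    rw [this, inv_mul_cancel₀ hc, C_1]⟩

/-- numerator / denominator of `j` as a function of `h₂`. -/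
theorem isCoprime_level2 (h2 : (2 : K) ≠ 0) :
    IsCoprime ((X + C 256) ^ 3 : K[X]) (X ^ 2) := by
  have hc : (256 : K) ≠ 0 := by
    have : (256 : K) = 2 ^ 8 := by norm_num
    rw [this]; exact pow_ne_zero _ h2
  exact ((isCoprime_X_add_C_X K hc).pow_left).pow_right

/-- numerator / denominator of `j` as a function of `h₃`. -/
theorem isCoprime_level3 (h3 : (3 : K) ≠ 0) :
    IsCoprime ((X + C 27) * (X + C 243) ^ 3 : K[X]) (X ^ 3) := by
  have hc1 : (27 : K) ≠ 0 := by
    have : (27 : K) = 3 ^ 3 := by norm_num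
    rw [this]; exact pow_ne_zero _ h3
  have hc2 : (243 : K) ≠ 0 := by
    have : (243 : K) = 3 ^ 5 := by norm_num
    rw [this]; exact pow_ne_zero _ h3
  exact (IsCoprime.mul_left (isCoprime_X_add_C_X K hc1)
    ((isCoprime_X_add_C_X K hc2).pow_left)).pow_right

end Coprime

variable {A : ValuationSubring (AlgebraicClosure ℚ)} {ℓ : ℕ} [Fact ℓ.Prime]

theorem natDegree_level2_num (K : Type*) [Field K] : ((X + C 256) ^ 3 : K[X]).natDegree = 3 := by
  rw [natDegree_pow, natDegree_X_add_C]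

theorem natDegree_level3_num (K : Type*) [Field K] :
    ((X + C 27) * (X + C 243) ^ 3 : K[X]).natDegree = 4 := by
  rw [natDegree_mul (X_add_C_ne_zero _) (pow_ne_zero _ (X_add_C_ne_zero _)), natDegree_pow,
    natDegree_X_add_C, natDegree_X_add_C]

set_option synthInstance.maxHeartbeats 400000 in
/-- **`hprim`, level 2** (`ℓ ≠ 2`): `FRes A 2 = k(j̄)(h̄₂)`. -/
theorem adjoin_ratFunc_h2K_eq_top (hA : A.LiesOverPrime ℓ) (hℓ2 : ¬ ℓ ∣ 2) :
    letI := ratFuncAlgebra (kRes A) (Gink.transcendental_jK A 2)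
    Algebra.adjoin (RatFunc (kRes A)) {Haupt.h2K 2 hA hℓ2 (dvd_refl 2)} = ⊤ := by
  have h2ne : (2 : kRes A) ≠ 0 := by
    have := Gink.natCast_ne_zero_kRes hA hℓ2
    exact_mod_cast this
  refine adjoin_ratFunc_eq_top_of_relation (kRes A) (Gink.transcendental_jK A 2)
    (Nn := (X + C 256) ^ 3) (D := X ^ 2) (pow_ne_zero _ X_ne_zero) (isCoprime_level2 _ h2ne) ?_ ?_
  · have hrel := Haupt.jK_mul_h2K 2 hA hℓ2 (dvd_refl 2)
    have h256 : algebraMap (kRes A) (FRes A 2) 256 = 256 := map_ofNat _ 256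
    rw [map_pow, map_pow, map_add, aeval_X, aeval_C, h256]
    exact hrel
  · rw [Gink.finrank_jK A 2 hA hℓ2, dedekindPsi_two', natDegree_level2_num, natDegree_X_pow]
    rfl

set_option synthInstance.maxHeartbeats 400000 in
/-- **`hprim`, level 3** (`ℓ ≠ 3`): `FRes A 3 = k(j̄)(h̄₃)`. -/
theorem adjoin_ratFunc_h3K_eq_top (hA : A.LiesOverPrime ℓ) (hℓ3 : ¬ ℓ ∣ 3) :
    letI := ratFuncAlgebra (kRes A) (Gink.transcendental_jK A 3)
    Algebra.adjoin (RatFunc (kRes A)) {Haupt.h3K 3 hA hℓ3 (dvd_refl 3)} = ⊤ := by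
  have h3ne : (3 : kRes A) ≠ 0 := by
    have := Gink.natCast_ne_zero_kRes hA hℓ3
    exact_mod_cast this
  refine adjoin_ratFunc_eq_top_of_relation (kRes A) (Gink.transcendental_jK A 3)
    (Nn := (X + C 27) * (X + C 243) ^ 3) (D := X ^ 3) (pow_ne_zero _ X_ne_zero)
    (isCoprime_level3 _ h3ne) ?_ ?_
  · have hrel := Haupt.jK_mul_h3K 3 hA hℓ3 (dvd_refl 3)
    have h27 : algebraMap (kRes A) (FRes A 3) 27 = 27 := map_ofNat _ 27
    have h243 : algebraMap (kRes A) (FRes A 3) 243 = 243 := map_ofNat _ 243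
    rw [map_pow, map_mul, map_pow, map_add, map_add, aeval_X, aeval_C, aeval_C, h27, h243]
    exact hrel
  · rw [Gink.finrank_jK A 3 hA hℓ3, dedekindPsi_three', natDegree_level3_num, natDegree_X_pow]
    rfl

end Fermat.Agent.S18lib.Mod23
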