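/-
S18lib / Mod23 / TableMod  (helper1): the concrete (M-d) = `hTable` of `Norm.exists_smul_lifts`
(resp. `Norm.mapDomain_le_count_of_tower`) at `c = 0` for the modular function fields
`FRes A N ⊆ FRes A N'` (`N ∣ N'`, `4 ∣ N'`, `ℓ = 3` resp. `9 ∣ N'`, `ℓ = 2`), with the auxiliary
field `F₁ = FRes A 2` (resp. `FRes A 3`), from lead's relations (`Haupt/Residue`), `hprim`
(`Mod23/PrimitiveMod`) and (S1) in Place form (hypothesis, = export of (M-c)).

All structures are the canonical ones: `polyAlgebra k (jK A M)`, `ratFuncAlgebra k (transcendental_jK A M)`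
(helper9's `RRgen/Canonical`), `(V.inclK A h).toRingHom.toAlgebra` (helper7's level inclusions),
`Mod23.towerAlgebra`.
-/
import Mathlib
import Fermat.Agent.S18lib.Mod23.TableFields
import Fermat.Agent.S18lib.Mod23.PrimitiveMod
import Fermat.Prelude.Def_ModularCurve_X0ModL

set_option autoImplicit false
set_option linter.unusedSectionVars false
set_option linter.style.haveILetI false

noncomputable section

namespace Fermat.Agent.S18lib.Mod23

open Module Polynomial IntermediateField ModularCurve AlgebraicCurve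
open Fermat.Agent.S18lib.RRgen.Canonical Fermat.Agent.S18lib.RRgen

variable {A : ValuationSubring (AlgebraicClosure ℚ)} {ℓ : ℕ} [Fact ℓ.Prime]

section Setup

variable (A) (M : ℕ) [NeZero M]

/-- `FRes A M` is finite over `RatFunc k` (`X ↦ j̄`). -/
theorem finiteDimensional_ratFunc_FRes :
    letI := ratFuncAlgebra (kRes A) (Gink.transcendental_jK A M)
    FiniteDimensional (RatFunc (kRes A)) (FRes A M) :=
  finiteDimensional_ratFunc (kRes A) (Gink.transcendental_jK A M)

/-- `FRes A M` is separable over `RatFunc k` (`X ↦ j̄`) for `ℓ ∤ M`. -/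
theorem isSeparable_ratFunc_FRes (hA : A.LiesOverPrime ℓ) (hℓM : ¬ ℓ ∣ M) :
    letI := ratFuncAlgebra (kRes A) (Gink.transcendental_jK A M)
    Algebra.IsSeparable (RatFunc (kRes A)) (FRes A M) := by
  haveI := Gink.isSeparable_jK A M hA hℓM
  exact isSeparable_ratFunc (kRes A) (Gink.transcendental_jK A M)

/-- the finite chart of `FRes A M` over `k[j̄]` is a Dedekind domain (`ℓ ∤ M`). -/
theorem isDedekindDomain_chartK (hA : A.LiesOverPrime ℓ) (hℓM : ¬ ℓ ∣ M) :
    letI := polyAlgebra (kRes A) (Gink.jK A M)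
    IsDedekindDomain (integralClosure (kRes A)[X] (FRes A M)) := by
  letI := polyAlgebra (kRes A) (Gink.jK A M)
  letI := ratFuncAlgebra (kRes A) (Gink.transcendental_jK A M)
  haveI := isScalarTower_poly_ratFunc (kRes A) (Gink.transcendental_jK A M)
  haveI := finiteDimensional_ratFunc_FRes A M
  haveI := isSeparable_ratFunc_FRes A M hA hℓM
  exact isDedekindDomain_chart (kRes A) (FRes A M)

end Setup

section Level

variable (A) {M M' : ℕ} [NeZero M] [NeZero M'] (h : M ∣ M')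

/-- the level inclusion `FRes A M ⊆ FRes A M'` (`M ∣ M'`) as an algebra structure; this is
`(V.inclK A h).toRingHom.toAlgebra` of helper7's `V/GaussU/Level.lean` (by unfolding `V.inclK`). -/
@[reducible] def levelAlg : Algebra (FRes A M) (FRes A M') :=
  (IntermediateField.inclusion (full_degeneracyC_le (kRes A) h)).toRingHom.toAlgebra

theorem coe_algebraMap_levelAlg (x : FRes A M) :
    letI := levelAlg A h
    ((algebraMap (FRes A M) (FRes A M') x : FRes A M') : LaurentSeries (kRes A)) =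
      (x : LaurentSeries (kRes A)) :=
  IntermediateField.coe_inclusion (full_degeneracyC_le (kRes A) h) x

/-- the level inclusion is `k`-linear. -/
theorem isScalarTower_levelAlg :
    letI := levelAlg A h
    IsScalarTower (kRes A) (FRes A M) (FRes A M') := by
  letI := levelAlg A h
  exact IsScalarTower.of_algebraMap_eq fun c =>
    ((IntermediateField.inclusion (full_degeneracyC_le (kRes A) h)).commutes c).symm

theorem algebraMap_levelAlg_jK :
    letI := levelAlg A h
    algebraMap (FRes A M) (FRes A M') (Gink.jK A M) = Gink.jK A M' := by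
  letI := levelAlg A h
  apply Subtype.ext
  rw [coe_algebraMap_levelAlg, Gink.coe_jK, Gink.coe_jK]

theorem algebraMap_levelAlg_h2K {ℓ : ℕ} [Fact ℓ.Prime] (hA : A.LiesOverPrime ℓ) (hℓM : ¬ ℓ ∣ M)
    (hℓM' : ¬ ℓ ∣ M') (h2 : 2 ∣ M) (h2' : 2 ∣ M') :
    letI := levelAlg A h
    algebraMap (FRes A M) (FRes A M') (Haupt.h2K M hA hℓM h2) = Haupt.h2K M' hA hℓM' h2' := by
  letI := levelAlg A h
  apply Subtype.ext
  rw [coe_algebraMap_levelAlg, Haupt.coe_h2K, Haupt.coe_h2K]

theorem algebraMap_levelAlg_h3K {ℓ : ℕ} [Fact ℓ.Prime] (hA : A.LiesOverPrime ℓ) (hℓM : ¬ ℓ ∣ M)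
    (hℓM' : ¬ ℓ ∣ M') (h3 : 3 ∣ M) (h3' : 3 ∣ M') :
    letI := levelAlg A h
    algebraMap (FRes A M) (FRes A M') (Haupt.h3K M hA hℓM h3) = Haupt.h3K M' hA hℓM' h3' := by
  letI := levelAlg A h
  apply Subtype.ext
  rw [coe_algebraMap_levelAlg, Haupt.coe_h3K, Haupt.coe_h3K]

/-- the polynomial structures `X ↦ j̄` are compatible with the level inclusion. -/
theorem isScalarTower_poly_levelAlg :
    letI := polyAlgebra (kRes A) (Gink.jK A M)
    letI := polyAlgebra (kRes A) (Gink.jK A M')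
    letI := levelAlg A h
    IsScalarTower (kRes A)[X] (FRes A M) (FRes A M') := by
  letI := levelAlg A h
  haveI := isScalarTower_levelAlg A h
  exact isScalarTower_poly_tower (kRes A) (algebraMap_levelAlg_jK A h)

/-- the `RatFunc k`-structures `X ↦ j̄` are compatible with the level inclusion. -/
theorem isScalarTower_ratFunc_levelAlg :
    letI := ratFuncAlgebra (kRes A) (Gink.transcendental_jK A M)
    letI := ratFuncAlgebra (kRes A) (Gink.transcendental_jK A M')
    letI := levelAlg A h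
    IsScalarTower (RatFunc (kRes A)) (FRes A M) (FRes A M') := by
  letI := levelAlg A h
  haveI := isScalarTower_levelAlg A h
  exact isScalarTower_ratFunc_tower (kRes A) (Gink.transcendental_jK A M)
    (Gink.transcendental_jK A M') (algebraMap_levelAlg_jK A h)

end Level

section Main

variable {N N' : ℕ} [NeZero N] [NeZero N']

/-- **(M-d), `ℓ = 3`**: `hTable` at `c = 0` for `FRes A N ⊆ FRes A N'`, `N ∣ N'`, `4 ∣ N'`, `3 ∤ N'`,
from (S1) for `μ̄₄ - 1` in Place form.  All data instances are the canonical ones; the `Prop`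
instances needed to state `differentIdeal` are universally quantified (any proofs will do). -/
theorem hTable_mod_three (hA : A.LiesOverPrime ℓ) (hℓ : ℓ = 3) (hℓN' : ¬ ℓ ∣ N') (hNN' : N ∣ N')
    (h4 : 4 ∣ N')
    (hS1 : ∀ v : Place (kRes A) (FRes A N'), 0 < v.ord (Haupt.mu4K N' hA hℓN' h4 - 1) →
      v.ord (Haupt.mu4K N' hA hℓN' h4 - 1) = 1) :
    letI := polyAlgebra (kRes A) (Gink.jK A N)
    letI := polyAlgebra (kRes A) (Gink.jK A N')
    letI := levelAlg A hNN'
    haveI := isScalarTower_poly_levelAlg A hNN'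
    letI := towerAlgebra (kRes A)[X] (FRes A N) (FRes A N')
    haveI := isDedekindDomain_chartK A N hA (fun h => hℓN' (h.trans hNN'))
    haveI := isDedekindDomain_chartK A N' hA hℓN'
    haveI := isTorsionFree_tower (kRes A)[X] (FRes A N) (FRes A N')
    ∀ Q : Ideal (integralClosure (kRes A)[X] (FRes A N)), Q.IsPrime →
      algebraMap (kRes A)[X] (integralClosure (kRes A)[X] (FRes A N)) (X - C 0) ∈ Q →
      ∃ (Q'' : Ideal (integralClosure (kRes A)[X] (FRes A N'))) (m : ℕ),
        Q'' ^ m ∣ (Q ^ 2).map (algebraMap (integralClosure (kRes A)[X] (FRes A N))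
          (integralClosure (kRes A)[X] (FRes A N'))) ∧
        ¬ Q'' ^ m ∣ differentIdeal (integralClosure (kRes A)[X] (FRes A N))
          (integralClosure (kRes A)[X] (FRes A N')) := by
  have hℓN : ¬ ℓ ∣ N := fun h => hℓN' (h.trans hNN')
  have h2N' : 2 ∣ N' := Dvd.dvd.trans (by norm_num) h4
  have hℓ2 : ¬ ℓ ∣ 2 := by rw [hℓ]; norm_num
  -- the structures
  letI := polyAlgebra (kRes A) (Gink.jK A N)
  letI := polyAlgebra (kRes A) (Gink.jK A 2)
  letI := polyAlgebra (kRes A) (Gink.jK A N')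
  letI := ratFuncAlgebra (kRes A) (Gink.transcendental_jK A N)
  letI := ratFuncAlgebra (kRes A) (Gink.transcendental_jK A 2)
  letI := ratFuncAlgebra (kRes A) (Gink.transcendental_jK A N')
  haveI := isScalarTower_poly_ratFunc (kRes A) (Gink.transcendental_jK A N)
  haveI := isScalarTower_poly_ratFunc (kRes A) (Gink.transcendental_jK A 2)
  haveI := isScalarTower_poly_ratFunc (kRes A) (Gink.transcendental_jK A N')
  haveI := isScalarTower_const_ratFunc (kRes A) (Gink.transcendental_jK A N')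
  haveI := finiteDimensional_ratFunc_FRes A N
  haveI := finiteDimensional_ratFunc_FRes A 2
  haveI := finiteDimensional_ratFunc_FRes A N'
  haveI := isSeparable_ratFunc_FRes A N hA hℓN
  haveI := isSeparable_ratFunc_FRes A 2 hA hℓ2
  haveI := isSeparable_ratFunc_FRes A N' hA hℓN'
  letI := levelAlg A hNN'
  letI a2 : Algebra (FRes A 2) (FRes A N') := levelAlg A h2N'
  haveI := isScalarTower_ratFunc_levelAlg A hNN'
  haveI := isScalarTower_ratFunc_levelAlg A h2N'
  haveI := isScalarTower_poly_levelAlg A h2N'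
  haveI := isScalarTower_poly_levelAlg A hNN'
  haveI : CharP (kRes A) 3 := hℓ ▸ Gink.charP_kRes A hA
  intro Q hQ hQ0
  -- the elements and relations
  have hhint : IsIntegral (kRes A)[X] (Haupt.h2K 2 hA hℓ2 (dvd_refl 2)) :=
    ⟨Haupt.polyH2 (kRes A), Haupt.polyH2_monic (kRes A), Haupt.eval₂_polyH2_h2K 2 hA hℓ2 (dvd_refl 2)⟩
  have hmmint : IsIntegral (kRes A)[X] (Haupt.mu4K N' hA hℓN' h4) :=
    ⟨Haupt.polyMu4 (kRes A), Haupt.polyMu4_monic (kRes A), Haupt.eval₂_polyMu4_mu4K N' hA hℓN' h4⟩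
  have hR1 : algebraMap (kRes A)[X] (FRes A 2) X * Haupt.h2K 2 hA hℓ2 (dvd_refl 2) ^ 2 =
      (Haupt.h2K 2 hA hℓ2 (dvd_refl 2) + 1) ^ 3 := by
    rw [algebraMap_polyAlgebra, aeval_X]
    exact Haupt.jK_mul_h2K_three 2 hA hℓ2 hℓ (dvd_refl 2)
  have hR2 : (algebraMap (FRes A 2) (FRes A N') (Haupt.h2K 2 hA hℓ2 (dvd_refl 2)) + 1) *
      (Haupt.mu4K N' hA hℓN' h4 + 1) = (Haupt.mu4K N' hA hℓN' h4 - 1) ^ 2 := by
    rw [algebraMap_levelAlg_h2K A h2N' hA hℓ2 hℓN' (dvd_refl 2) h2N']
    exact Haupt.h2K_mul_mu4K_three N' hA hℓN' hℓ h4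
  have hprim := adjoin_ratFunc_h2K_eq_top hA hℓ2
  exact hTable_three (kRes A) (FRes A N) (FRes A 2) (FRes A N') _ _ hhint hmmint hR1 hR2 hS1 hprim
    Q hQ hQ0

/-- **(M-d), `ℓ = 2`**: `hTable` at `c = 0` for `FRes A N ⊆ FRes A N'`, `N ∣ N'`, `9 ∣ N'`, `2 ∤ N'`,
from (S1) for `μ̄₉ + 1` in Place form. -/
theorem hTable_mod_two (hA : A.LiesOverPrime ℓ) (hℓ : ℓ = 2) (hℓN' : ¬ ℓ ∣ N') (hNN' : N ∣ N')
    (h9 : 9 ∣ N')
    (hS1 : ∀ v : Place (kRes A) (FRes A N'), 0 < v.ord (Haupt.mu9K N' hA hℓN' h9 + 1) →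
      v.ord (Haupt.mu9K N' hA hℓN' h9 + 1) = 1) :
    letI := polyAlgebra (kRes A) (Gink.jK A N)
    letI := polyAlgebra (kRes A) (Gink.jK A N')
    letI := levelAlg A hNN'
    haveI := isScalarTower_poly_levelAlg A hNN'
    letI := towerAlgebra (kRes A)[X] (FRes A N) (FRes A N')
    haveI := isDedekindDomain_chartK A N hA (fun h => hℓN' (h.trans hNN'))
    haveI := isDedekindDomain_chartK A N' hA hℓN'
    haveI := isTorsionFree_tower (kRes A)[X] (FRes A N) (FRes A N')
    ∀ Q : Ideal (integralClosure (kRes A)[X] (FRes A N)), Q.IsPrime →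
      algebraMap (kRes A)[X] (integralClosure (kRes A)[X] (FRes A N)) (X - C 0) ∈ Q →
      ∃ (Q'' : Ideal (integralClosure (kRes A)[X] (FRes A N'))) (m : ℕ),
        Q'' ^ m ∣ (Q ^ 2).map (algebraMap (integralClosure (kRes A)[X] (FRes A N))
          (integralClosure (kRes A)[X] (FRes A N'))) ∧
        ¬ Q'' ^ m ∣ differentIdeal (integralClosure (kRes A)[X] (FRes A N))
          (integralClosure (kRes A)[X] (FRes A N')) := by
  have hℓN : ¬ ℓ ∣ N := fun h => hℓN' (h.trans hNN')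
  have h3N' : 3 ∣ N' := Dvd.dvd.trans (by norm_num) h9
  have hℓ3 : ¬ ℓ ∣ 3 := by rw [hℓ]; norm_num
  letI := polyAlgebra (kRes A) (Gink.jK A N)
  letI := polyAlgebra (kRes A) (Gink.jK A 3)
  letI := polyAlgebra (kRes A) (Gink.jK A N')
  letI := ratFuncAlgebra (kRes A) (Gink.transcendental_jK A N)
  letI := ratFuncAlgebra (kRes A) (Gink.transcendental_jK A 3)
  letI := ratFuncAlgebra (kRes A) (Gink.transcendental_jK A N')
  haveI := isScalarTower_poly_ratFunc (kRes A) (Gink.transcendental_jK A N)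
  haveI := isScalarTower_poly_ratFunc (kRes A) (Gink.transcendental_jK A 3)
  haveI := isScalarTower_poly_ratFunc (kRes A) (Gink.transcendental_jK A N')
  haveI := isScalarTower_const_ratFunc (kRes A) (Gink.transcendental_jK A N')
  haveI := finiteDimensional_ratFunc_FRes A N
  haveI := finiteDimensional_ratFunc_FRes A 3
  haveI := finiteDimensional_ratFunc_FRes A N'
  haveI := isSeparable_ratFunc_FRes A N hA hℓN
  haveI := isSeparable_ratFunc_FRes A 3 hA hℓ3
  haveI := isSeparable_ratFunc_FRes A N' hA hℓN'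
  letI := levelAlg A hNN'
  letI a3 : Algebra (FRes A 3) (FRes A N') := levelAlg A h3N'
  haveI := isScalarTower_ratFunc_levelAlg A hNN'
  haveI := isScalarTower_ratFunc_levelAlg A h3N'
  haveI := isScalarTower_poly_levelAlg A h3N'
  haveI := isScalarTower_poly_levelAlg A hNN'
  haveI : CharP (kRes A) 2 := hℓ ▸ Gink.charP_kRes A hA
  intro Q hQ hQ0
  have hhint : IsIntegral (kRes A)[X] (Haupt.h3K 3 hA hℓ3 (dvd_refl 3)) :=
    ⟨Haupt.polyH3 (kRes A), Haupt.polyH3_monic (kRes A), Haupt.eval₂_polyH3_h3K 3 hA hℓ3 (dvd_refl 3)⟩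
  have hmmint : IsIntegral (kRes A)[X] (Haupt.mu9K N' hA hℓN' h9) :=
    ⟨Haupt.polyMu9 (kRes A), Haupt.polyMu9_monic (kRes A), Haupt.eval₂_polyMu9_mu9K N' hA hℓN' h9⟩
  have hR1 : algebraMap (kRes A)[X] (FRes A 3) X * Haupt.h3K 3 hA hℓ3 (dvd_refl 3) ^ 3 =
      (Haupt.h3K 3 hA hℓ3 (dvd_refl 3) + 1) ^ 4 := by
    rw [algebraMap_polyAlgebra, aeval_X]
    exact Haupt.jK_mul_h3K_two 3 hA hℓ3 hℓ (dvd_refl 3)
  have hR2 : (algebraMap (FRes A 3) (FRes A N') (Haupt.h3K 3 hA hℓ3 (dvd_refl 3)) + 1) *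
      (Haupt.mu9K N' hA hℓN' h9 ^ 2 + Haupt.mu9K N' hA hℓN' h9 + 1) =
        (Haupt.mu9K N' hA hℓN' h9 + 1) ^ 3 := by
    rw [algebraMap_levelAlg_h3K A h3N' hA hℓ3 hℓN' (dvd_refl 3) h3N']
    exact Haupt.h3K_mul_mu9K_two N' hA hℓN' hℓ h9
  have hprim := adjoin_ratFunc_h3K_eq_top hA hℓ3
  exact hTable_two (kRes A) (FRes A N) (FRes A 3) (FRes A N') _ _ hhint hmmint hR1 hR2 hS1 hprim
    Q hQ hQ0

end Main

end Fermat.Agent.S18lib.Mod23
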